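import Mathlib.NumberTheory.Chebyshev
import Mathlib.Analysis.SpecialFunctions.Log.Basic
import Mathlib.Analysis.SpecialFunctions.Pow.Asymptotics

/-!
# `lcm (1, …, n) = O (3.1 ^ n)`

Chebyshev's quotient `n! (n/30)! / ((n/2)! (n/3)! (n/5)!)` bounds `ψ n - ψ (n / 6)` by
`A n + O (log n)` with `A = 0.9212…`, and `6 A / 5 < log 3.1`.
-/

set_option autoImplicit false

noncomputable section

namespace FA.Apery

open Finset
open scoped ArithmeticFunction.vonMangoldt ArithmeticFunction.zeta Nat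

/-- `log n!`. -/
def logFact (n : ℕ) : ℝ := Real.log (n ! : ℕ)

/-- `x log x - x`. -/
def gStir (x : ℝ) : ℝ := x * Real.log x - x

/-- `∑ Λ d`, `d ≤ n`. -/
def psiNat (n : ℕ) : ℝ := ∑ d ∈ Ioc 0 n, Λ d

theorem logFact_succ (n : ℕ) : logFact (n + 1) = logFact n + Real.log ((n : ℝ) + 1) := by
  rw [logFact, logFact, Nat.factorial_succ, Nat.cast_mul,
    Real.log_mul (by positivity) (Nat.cast_ne_zero.mpr n.factorial_ne_zero), add_comm]
  push_cast
  rfl

theorem logFact_eq_sum (n : ℕ) : logFact n = ∑ d ∈ Ioc 0 n, Λ d * ((n / d : ℕ) : ℝ) := by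
  rw [← ArithmeticFunction.sum_Ioc_mul_zeta_eq_sum, ArithmeticFunction.vonMangoldt_mul_zeta]
  induction n with
  | zero => simp [logFact]
  | succ n ih =>
    rw [logFact_succ, ih, Finset.sum_Ioc_succ_top (Nat.zero_le n), ArithmeticFunction.log_apply]
    push_cast
    rfl

theorem logFact_eq_sum_le {n N : ℕ} (h : n ≤ N) :
    logFact n = ∑ d ∈ Ioc 0 N, Λ d * ((n / d : ℕ) : ℝ) := by
  rw [logFact_eq_sum]
  refine Finset.sum_subset (Finset.Ioc_subset_Ioc_right h) fun d hd hd' => ?_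
  rw [mem_Ioc] at hd hd'
  rw [Nat.div_eq_of_lt (by omega), Nat.cast_zero, mul_zero]

/-- Chebyshev's combination dominates `ψ n - ψ (n / 6)`. -/
theorem psiNat_sub_le (n : ℕ) : psiNat n - psiNat (n / 6) ≤
    logFact n + logFact (n / 30) - logFact (n / 2) - logFact (n / 3) - logFact (n / 5) := by
  rw [psiNat, psiNat, ← Finset.sum_Ioc_consecutive (fun d => Λ d) (Nat.zero_le _)
    (Nat.div_le_self n 6), add_sub_cancel_left, logFact_eq_sum_le (Nat.div_le_self n 30),
    logFact_eq_sum_le (Nat.div_le_self n 2), logFact_eq_sum_le (Nat.div_le_self n 3),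
    logFact_eq_sum_le (Nat.div_le_self n 5), logFact_eq_sum n]
  simp only [← Finset.sum_add_distrib, ← Finset.sum_sub_distrib]
  have hcomm : ∀ k d : ℕ, n / k / d = n / d / k := fun k d => by
    rw [Nat.div_div_eq_div_mul, Nat.div_div_eq_div_mul, mul_comm]
  have hf : ∀ q : ℕ, q / 2 + q / 3 + q / 5 ≤ q + q / 30 := fun q => by omega
  have key : ∀ d, (Λ d * ((n / d : ℕ) : ℝ) + Λ d * ((n / 30 / d : ℕ) : ℝ) -
      Λ d * ((n / 2 / d : ℕ) : ℝ) - Λ d * ((n / 3 / d : ℕ) : ℝ) -
      Λ d * ((n / 5 / d : ℕ) : ℝ)) =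
      Λ d * ((n / d + n / d / 30 - (n / d / 2 + n / d / 3 + n / d / 5) : ℕ) : ℝ) := fun d => by
    rw [hcomm, hcomm 2, hcomm 3, hcomm 5, Nat.cast_sub (hf _)]
    push_cast
    ring
  simp only [key]
  refine le_trans (Finset.sum_le_sum fun d hd => ?_) (Finset.sum_le_sum_of_subset_of_nonneg
    (Finset.Ioc_subset_Ioc_left (Nat.zero_le (n / 6)))
    fun d _ _ => mul_nonneg ArithmeticFunction.vonMangoldt_nonneg (Nat.cast_nonneg _))
  rw [mem_Ioc] at hd
  refine le_mul_of_one_le_right ArithmeticFunction.vonMangoldt_nonneg ?_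
  have h1 : 1 ≤ n / d := Nat.div_pos hd.2 (by omega)
  have h2 : n / d ≤ 5 := by
    by_contra h
    push Not at h
    have := (Nat.le_div_iff_mul_le (by omega : 0 < d)).mp h
    have := (Nat.div_lt_iff_lt_mul (by norm_num : 0 < 6)).mp hd.1
    omega
  exact_mod_cast (by omega : 1 ≤ n / d + n / d / 30 - (n / d / 2 + n / d / 3 + n / d / 5))

theorem gStir_mono {x y : ℝ} (hx : 1 ≤ x) (hxy : x ≤ y) : gStir x ≤ gStir y := by
  have hx0 : 0 < x := by linarith
  have hy0 : 0 < y := by linarith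
  have h := Real.one_sub_inv_le_log_of_pos (div_pos hy0 hx0)
  rw [Real.log_div hy0.ne' hx0.ne', inv_div] at h
  have h' := mul_le_mul_of_nonneg_left h hy0.le
  rw [mul_sub, mul_one, mul_div_cancel₀ _ hy0.ne'] at h'
  simp only [gStir]
  nlinarith [mul_nonneg (sub_nonneg.mpr hxy) (Real.log_nonneg hx)]

theorem gStir_le_logFact (n : ℕ) : gStir n ≤ logFact n := by
  induction n with
  | zero => simp [gStir, logFact]
  | succ n ih =>
    rw [logFact_succ]
    rcases Nat.eq_zero_or_pos n with rfl | hn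
    · simp [gStir, logFact]
    have h0 : (0 : ℝ) < n := Nat.cast_pos.mpr hn
    have h := Real.log_le_sub_one_of_pos (show (0 : ℝ) < (n + 1) / n by positivity)
    rw [Real.log_div (by linarith) h0.ne'] at h
    have h' := mul_le_mul_of_nonneg_left h h0.le
    rw [mul_sub (n : ℝ) ((n + 1) / n), mul_div_cancel₀ _ h0.ne'] at h'
    simp only [gStir] at ih ⊢
    push_cast
    nlinarith

theorem logFact_le {n : ℕ} (hn : 1 ≤ n) : logFact n ≤ gStir n + 1 + Real.log n := by
  induction n, hn using Nat.le_induction with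
  | base => simp [gStir, logFact]
  | succ n hn ih =>
    rw [logFact_succ]
    have h0 : (0 : ℝ) < n := Nat.cast_pos.mpr (by omega)
    have h1 : (0 : ℝ) < n + 1 := by linarith
    have h := Real.one_sub_inv_le_log_of_pos (show (0 : ℝ) < (n + 1) / n by positivity)
    rw [Real.log_div h1.ne' h0.ne', inv_div] at h
    have h' := mul_le_mul_of_nonneg_left h h1.le
    rw [mul_sub ((n : ℝ) + 1), mul_one, mul_div_cancel₀ _ h1.ne'] at h'
    simp only [gStir] at ih ⊢
    push_cast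
    nlinarith

/-- Chebyshev's constant. -/
def chebA : ℝ := Real.log 2 / 2 + Real.log 3 / 3 + Real.log 5 / 5 - Real.log 30 / 30

theorem psiNat_sub_le_linear {n : ℕ} (hn : 30 ≤ n) :
    psiNat n - psiNat (n / 6) ≤ chebA * n + 2 + 5 * Real.log ((n : ℝ) + 1) := by
  refine (psiNat_sub_le n).trans ?_
  have hx : (30 : ℝ) ≤ n := by exact_mod_cast hn
  have hl : Real.log n ≤ Real.log ((n : ℝ) + 1) := Real.log_le_log (by linarith) (by linarith)
  have up : logFact (n / 30) ≤ gStir ((n : ℝ) / 30) + 1 + Real.log ((n : ℝ) + 1) := by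
    have h1 : 1 ≤ n / 30 := by omega
    refine (logFact_le h1).trans (add_le_add (add_le_add ?_ le_rfl) ?_)
    · refine gStir_mono (by exact_mod_cast h1) ?_
      exact_mod_cast (Nat.cast_div_le (α := ℝ) (m := n) (n := 30))
    · refine Real.log_le_log (by exact_mod_cast h1) ?_
      have : ((n / 30 : ℕ) : ℝ) ≤ n := by exact_mod_cast Nat.div_le_self n 30
      linarith
  have low : ∀ k : ℕ, 1 ≤ k → k ≤ 5 →
      gStir ((n : ℝ) / k) - Real.log ((n : ℝ) + 1) ≤ logFact (n / k) := fun k hk hk5 => by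
    have hk0 : (0 : ℝ) < k := Nat.cast_pos.mpr (by omega)
    have h1 := gStir_le_logFact (n / k + 1)
    rw [logFact_succ] at h1
    have h2 : gStir ((n : ℝ) / k) ≤ gStir ((n / k + 1 : ℕ) : ℝ) := by
      refine gStir_mono ?_ ?_
      · rw [le_div_iff₀ hk0, one_mul]
        exact_mod_cast (by omega : k ≤ n)
      · rw [div_le_iff₀ hk0]
        exact_mod_cast (by
          have := Nat.div_add_mod n k
          have := Nat.mod_lt n (by omega : k > 0)
          rw [add_mul, one_mul, mul_comm]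
          omega : n ≤ (n / k + 1) * k)
    have h3 : Real.log (((n / k : ℕ) : ℝ) + 1) ≤ Real.log ((n : ℝ) + 1) :=
      Real.log_le_log (by positivity)
        (by have : ((n / k : ℕ) : ℝ) ≤ n := by exact_mod_cast Nat.div_le_self n k
            linarith)
    linarith
  have e : gStir n + gStir ((n : ℝ) / 30) - gStir ((n : ℝ) / 2) - gStir ((n : ℝ) / 3) -
      gStir ((n : ℝ) / 5) = chebA * n := by
    simp only [gStir, chebA, Real.log_div (show (n : ℝ) ≠ 0 by linarith)
      (show (30 : ℝ) ≠ 0 by norm_num), Real.log_div (show (n : ℝ) ≠ 0 by linarith)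
      (show (2 : ℝ) ≠ 0 by norm_num), Real.log_div (show (n : ℝ) ≠ 0 by linarith)
      (show (3 : ℝ) ≠ 0 by norm_num), Real.log_div (show (n : ℝ) ≠ 0 by linarith)
      (show (5 : ℝ) ≠ 0 by norm_num)]
    ring
  have := logFact_le (show 1 ≤ n by omega)
  have l2 := low 2 (by norm_num) (by norm_num)
  have l3 := low 3 (by norm_num) (by norm_num)
  have l5 := low 5 (by norm_num) (by norm_num)
  push_cast at l2 l3 l5
  linarith

theorem chebA_lt : chebA < 5 / 6 * Real.log (31 / 10) := by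
  have h : Real.log ((2 : ℝ) ^ 14 * 3 ^ 9 * 5 ^ 5) < Real.log ((31 / 10 : ℝ) ^ 25) :=
    Real.log_lt_log (by norm_num) (by norm_num)
  rw [Real.log_mul (by norm_num) (by norm_num), Real.log_mul (by norm_num) (by norm_num),
    Real.log_pow, Real.log_pow, Real.log_pow, Real.log_pow] at h
  have h30 : Real.log 30 = Real.log 2 + Real.log 3 + Real.log 5 := by
    rw [← Real.log_mul (by norm_num) (by norm_num), ← Real.log_mul (by norm_num) (by norm_num)]
    norm_num
  push_cast at h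
  simp only [chebA, h30]
  linarith

/-- **Chebyshev's bound.** -/
theorem exists_psiNat_le : ∃ C : ℝ, ∀ n : ℕ, psiNat n ≤ Real.log (31 / 10) * n + C := by
  set B := Real.log (31 / 10)
  set δ := 5 / 6 * B - chebA
  have hδ : 0 < δ := sub_pos.mpr chebA_lt
  obtain ⟨N₀, hN₀⟩ : ∃ N₀ : ℕ, ∀ n, N₀ ≤ n → 30 ≤ n ∧
      2 + 5 * Real.log ((n : ℝ) + 1) ≤ δ * n := by
    have h := (Real.isLittleO_log_id_atTop.bound (show 0 < δ / 20 by positivity)).and
      (Filter.eventually_ge_atTop (max 31 (4 / δ + 1)))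
    obtain ⟨X, hX⟩ := Filter.eventually_atTop.mp h
    refine ⟨⌈X⌉₊ + 30, fun n hn => ⟨by omega, ?_⟩⟩
    have hXn : X ≤ (n : ℝ) + 1 := by
      have := Nat.le_ceil X
      have : (⌈X⌉₊ : ℝ) ≤ n := by exact_mod_cast (by omega : ⌈X⌉₊ ≤ n)
      linarith
    obtain ⟨h1, h2⟩ := hX _ hXn
    rw [Real.norm_eq_abs, id_eq, Real.norm_eq_abs, abs_of_nonneg (by positivity : (0 : ℝ) ≤ n + 1)]
      at h1
    have h3 := (le_max_right _ _).trans h2
    have h4 : 2 ≤ δ * n / 2 := by
      have : 4 / δ ≤ n := by linarith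
      rw [div_le_iff₀ hδ] at this
      linarith
    have h5 : (1 : ℝ) ≤ n := by exact_mod_cast (by omega : 1 ≤ n)
    nlinarith [le_abs_self (Real.log ((n : ℝ) + 1))]
  obtain ⟨C, hC⟩ : ∃ C : ℝ, ∀ n < N₀, psiNat n ≤ C :=
    ⟨∑ n ∈ range N₀, psiNat n, fun n hn => Finset.single_le_sum (f := psiNat)
      (fun m _ => Finset.sum_nonneg fun _ _ => ArithmeticFunction.vonMangoldt_nonneg)
      (mem_range.mpr hn)⟩
  have hB : 0 ≤ B := Real.log_nonneg (by norm_num)
  refine ⟨C, fun n => ?_⟩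
  induction n using Nat.strong_induction_on with
  | _ n ih =>
    rcases Nat.lt_or_ge n N₀ with hn | hn
    · linarith [hC n hn, mul_nonneg hB (Nat.cast_nonneg (α := ℝ) n)]
    obtain ⟨h30, hlog⟩ := hN₀ n hn
    have h1 := psiNat_sub_le_linear h30
    have h2 := ih (n / 6) (Nat.div_lt_self (by omega) (by norm_num))
    have h3 : ((n / 6 : ℕ) : ℝ) ≤ (n : ℝ) / 6 := by
      exact_mod_cast (Nat.cast_div_le (α := ℝ) (m := n) (n := 6))
    have h4 := mul_le_mul_of_nonneg_left h3 hB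
    simp only [δ] at hlog
    nlinarith

/-- **`lcm (1, …, n) = O (3.1 ^ n)`.** -/
theorem exists_lcmUpto_le :
    ∃ C : ℝ, 0 < C ∧ ∀ n : ℕ, (Nat.lcmUpto n : ℝ) ≤ C * (31 / 10) ^ n := by
  obtain ⟨C, hC⟩ := exists_psiNat_le
  refine ⟨Real.exp C, Real.exp_pos C, fun n => ?_⟩
  have h := Chebyshev.psi_eq_log_lcmUpto n
  rw [Chebyshev.psi, Nat.floor_natCast] at h
  have h2 := Real.exp_le_exp.mpr (hC n)
  rw [psiNat, h, Real.exp_log (Nat.cast_pos.mpr (Nat.lcmUpto_pos n)), Real.exp_add,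
    mul_comm (Real.log _) (n : ℝ), Real.exp_nat_mul, Real.exp_log (by norm_num)] at h2
  rwa [mul_comm]

end FA.Apery

end
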