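import Fermat.Agent.Apery.Recurrence
import Fermat.Agent.Apery.Chebyshev
import Mathlib.Analysis.PSeries
import Mathlib.NumberTheory.Real.Irrational
import Mathlib.Data.Nat.Choose.Factorization

/-!
# The theorem of Apéry

`0 < aₙ ζ(3) - bₙ ≤ 6 ζ(3) / aₙ`, `2 lcm (1..n) ^ 3 bₙ ∈ ℤ` and `aₙ ≫ 30 ^ n` make `ζ(3)`
irrational, as `3.1 ^ 3 < 30`.
-/

set_option autoImplicit false

noncomputable section

namespace FA.Apery

open Finset Filter
open scoped Topology

theorem mul_choose_dvd_lcmUpto {m n : ℕ} (hm : 1 ≤ m) (hmn : m ≤ n) :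
    m * n.choose m ∣ Nat.lcmUpto n := by
  have hm0 : m ≠ 0 := by omega
  have hc : n.choose m ≠ 0 := (Nat.choose_pos hmn).ne'
  rw [← Nat.factorization_le_iff_dvd (mul_ne_zero hm0 hc) (Nat.lcmUpto_ne_zero n),
    Finsupp.le_iff]
  intro p hp
  have hpp : p.Prime := Nat.prime_of_mem_primeFactors
    (by rwa [Nat.support_factorization] at hp)
  rw [Nat.factorization_mul hm0 hc, Finsupp.add_apply, Nat.factorization_lcmUpto n hpp,
    Nat.factorization_choose hpp hmn (Nat.lt_succ_self _)]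
  set ν := m.factorization p
  have hν : ν ≤ Nat.log p n := by
    refine Nat.le_log_of_pow_le hpp.one_lt ?_
    exact (Nat.le_of_dvd (by omega) (Nat.ordProj_dvd m p)).trans hmn
  have hsub : {i ∈ Finset.Ico 1 (Nat.log p n).succ | p ^ i ≤ m % p ^ i + (n - m) % p ^ i} ⊆
      Finset.Ico (ν + 1) (Nat.log p n).succ := fun i hi => by
    rw [Finset.mem_filter, Finset.mem_Ico] at hi
    rw [Finset.mem_Ico]
    refine ⟨?_, hi.1.2⟩
    by_contra h
    have hd : p ^ i ∣ m := (pow_dvd_pow p (by omega)).trans (Nat.ordProj_dvd m p)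
    rw [Nat.mod_eq_zero_of_dvd hd] at hi
    have := Nat.mod_lt (n - m) (pow_pos hpp.pos i)
    omega
  have := Finset.card_le_card hsub
  rw [Nat.card_Ico] at this
  omega

/-- `x` is an integer. -/
def IsI (x : ℚ) : Prop := ∃ z : ℤ, x = z

theorem isI_sum {ι : Type*} (s : Finset ι) {f : ι → ℚ} (h : ∀ i ∈ s, IsI (f i)) :
    IsI (∑ i ∈ s, f i) := by
  classical
  induction s using Finset.induction with
  | empty => exact ⟨0, by simp⟩
  | insert i s hi ih =>
    obtain ⟨u, hu⟩ := h i (Finset.mem_insert_self i s)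
    obtain ⟨v, hv⟩ := ih fun j hj => h j (Finset.mem_insert_of_mem hj)
    exact ⟨u + v, by rw [Finset.sum_insert hi, hu, hv]; push_cast; rfl⟩

theorem isI_aSeq (n : ℕ) : IsI (aSeq n) :=
  isI_sum _ fun k _ => ⟨((n.choose k * (n + k).choose k) ^ 2 : ℕ), by simp [P]⟩

theorem isI_bSeq (n : ℕ) : IsI (2 * (Nat.lcmUpto n : ℚ) ^ 3 * bSeq n) := by
  rw [bSeq, Finset.mul_sum]
  refine isI_sum _ fun k hk => ?_
  have hkn : k ≤ n := Nat.lt_succ_iff.mp (Finset.mem_range.mp hk)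
  rw [cval, mul_add, mul_add, H, corr, Finset.mul_sum, Finset.mul_sum, Finset.mul_sum,
    Finset.mul_sum]
  obtain ⟨u, hu⟩ : IsI (∑ m ∈ range n,
      2 * (Nat.lcmUpto n : ℚ) ^ 3 * (P n k ^ 2 * (1 / ((m : ℚ) + 1) ^ 3))) :=
    isI_sum _ fun m hm => by
      have hd : m + 1 ∣ Nat.lcmUpto n := Finset.dvd_lcm (f := id)
        (Finset.mem_Icc.mpr ⟨by omega, by rw [Finset.mem_range] at hm; omega⟩)
      obtain ⟨e, he⟩ := hd
      refine ⟨((2 * e ^ 3 * (n.choose k * (n + k).choose k) ^ 2 : ℕ) : ℤ), ?_⟩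
      rw [he, P]
      push_cast
      field_simp
  obtain ⟨v, hv⟩ : IsI (∑ m ∈ range k, 2 * (Nat.lcmUpto n : ℚ) ^ 3 *
      (P n k ^ 2 * ((-1) ^ m / (2 * ((m : ℚ) + 1) ^ 3 * P n (m + 1))))) :=
    isI_sum _ fun m hm => by
      have hmk : m + 1 ≤ k := by rw [Finset.mem_range] at hm; omega
      have hd₁ : (m + 1) * n.choose (m + 1) ∣ Nat.lcmUpto n :=
        mul_choose_dvd_lcmUpto (by omega) (by omega)
      have hd₂ : (m + 1) * k.choose (m + 1) ∣ Nat.lcmUpto n :=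
        (mul_choose_dvd_lcmUpto (by omega) hmk).trans
          (Finset.lcm_mono (Finset.Icc_subset_Icc_right hkn))
      have hd₃ : m + 1 ∣ Nat.lcmUpto n := (dvd_mul_right _ _).trans hd₁
      obtain ⟨e₁, he₁⟩ := hd₁
      obtain ⟨e₂, he₂⟩ := hd₂
      obtain ⟨e₃, he₃⟩ := hd₃
      refine ⟨(-1) ^ m * ((e₁ * e₂ * e₃ * n.choose k ^ 2 * (n + k).choose k *
        (n + k).choose (k - (m + 1)) : ℕ) : ℤ), ?_⟩
      have hid := Nat.choose_mul (n := n + k) (k := k) (s := k - (m + 1)) (Nat.sub_le _ _)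
      rw [Nat.choose_symm hmk, show n + k - (k - (m + 1)) = n + (m + 1) by omega,
        show k - (k - (m + 1)) = m + 1 by omega] at hid
      have hid' := congrArg (fun x : ℕ => (x : ℚ)) hid
      have h1 : (n.choose (m + 1) : ℚ) ≠ 0 :=
        Nat.cast_ne_zero.mpr (Nat.choose_pos (by omega)).ne'
      have h2 : (k.choose (m + 1) : ℚ) ≠ 0 := Nat.cast_ne_zero.mpr (Nat.choose_pos hmk).ne'
      have h3 : ((n + (m + 1)).choose (m + 1) : ℚ) ≠ 0 :=
        Nat.cast_ne_zero.mpr (Nat.choose_pos (by omega)).ne'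
      have h4 : ((m : ℚ) + 1) ≠ 0 := by positivity
      have f₁ := congrArg (fun x : ℕ => (x : ℚ)) he₁
      have f₂ := congrArg (fun x : ℕ => (x : ℚ)) he₂
      have f₃ := congrArg (fun x : ℕ => (x : ℚ)) he₃
      push_cast at f₁ f₂ f₃ hid'
      rw [P, P]
      push_cast
      rw [show (Nat.lcmUpto n : ℚ) ^ 3 = (((m : ℚ) + 1) * n.choose (m + 1) * e₁) *
        (((m : ℚ) + 1) * k.choose (m + 1) * e₂) * (((m : ℚ) + 1) * e₃) by
          rw [← f₁, ← f₂, ← f₃]; ring]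
      field_simp
      linear_combination ((n.choose k : ℚ) ^ 2 * (n + k).choose k * e₁ * e₂ * e₃) *
        hid'
  exact ⟨u + v, by rw [hu, hv]; push_cast; rfl⟩

theorem aSeq_pos (n : ℕ) : 0 < aSeq n :=
  Finset.sum_pos (fun k hk => pow_pos (P_pos (Nat.lt_succ_iff.mp (Finset.mem_range.mp hk))) 2)
    ⟨0, Finset.mem_range.mpr (by omega)⟩

theorem five_mul_aSeq_le (n : ℕ) : 5 * aSeq n ≤ aSeq (n + 1) := by
  induction n with
  | zero => rw [aSeq_zero, aSeq_one]; norm_num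
  | succ n ih =>
    obtain ⟨h, -⟩ := recurrence n
    have h0 : (0 : ℚ) < ((n : ℚ) + 2) ^ 3 := by positivity
    refine le_of_mul_le_mul_left ?_ h0
    simp only [pol] at h
    nlinarith [mul_le_mul_of_nonneg_left ih (show (0 : ℚ) ≤ ((n : ℚ) + 1) ^ 3 by positivity),
      mul_nonneg (show (0 : ℚ) ≤ (n : ℚ) ^ 3 + (n : ℚ) ^ 2 + n + 1 by positivity)
        (aSeq_pos (n + 1)).le, mul_nonneg (Nat.cast_nonneg (α := ℚ) n) (aSeq_pos (n + 1)).le,
      mul_nonneg (sq_nonneg (n : ℚ)) (aSeq_pos (n + 1)).le]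

theorem thirty_mul_aSeq_le {n : ℕ} (hn : 12 ≤ n) : 30 * aSeq n ≤ aSeq (n + 1) := by
  obtain ⟨j, rfl⟩ : ∃ j, n = j + 1 := ⟨n - 1, by omega⟩
  obtain ⟨h, -⟩ := recurrence j
  have hj : (11 : ℚ) ≤ j := by exact_mod_cast (by omega : 11 ≤ j)
  have h0 : (0 : ℚ) < ((j : ℚ) + 2) ^ 3 := by positivity
  refine le_of_mul_le_mul_left ?_ h0
  have hp : 30 * ((j : ℚ) + 2) ^ 3 ≤ pol ((j : ℚ) + 1) - ((j : ℚ) + 1) ^ 3 / 5 := by
    simp only [pol]
    nlinarith [mul_nonneg (sub_nonneg.mpr hj) (sq_nonneg (j : ℚ))]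
  nlinarith [mul_le_mul_of_nonneg_left (five_mul_aSeq_le j)
      (show (0 : ℚ) ≤ ((j : ℚ) + 1) ^ 3 / 5 by positivity),
    mul_le_mul_of_nonneg_right hp (aSeq_pos (j + 1)).le]

theorem pow_thirty_le (n : ℕ) (hn : 12 ≤ n) : (30 : ℚ) ^ n ≤ 30 ^ 12 * aSeq n := by
  induction n, hn using Nat.le_induction with
  | base =>
    refine le_mul_of_one_le_right (by positivity) ?_
    refine le_trans (le_of_eq (by rw [P_zero, one_pow])) (Finset.single_le_sum
      (f := fun k => P 12 k ^ 2) (fun _ _ => sq_nonneg _)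
      (Finset.mem_range.mpr (by omega : 0 < 13)))
  | succ n hn ih =>
    rw [pow_succ]
    nlinarith [thirty_mul_aSeq_le hn]

/-- `ζ(3) = ∑ 1 / (n + 1) ^ 3`. -/
def zetaThree : ℝ := ∑' n : ℕ, 1 / ((n : ℝ) + 1) ^ 3

theorem summable_cubes : Summable fun n : ℕ => 1 / ((n : ℝ) + 1) ^ 3 := by
  have := (Real.summable_one_div_nat_pow.mpr (by norm_num : 1 < 3)).comp_injective
    (add_left_injective 1)
  refine this.congr fun n => ?_
  simp

theorem cast_H (n : ℕ) : ((H n : ℚ) : ℝ) = ∑ m ∈ range n, 1 / ((m : ℝ) + 1) ^ 3 := by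
  simp [H]

theorem H_le (n : ℕ) : ((H n : ℚ) : ℝ) ≤ zetaThree := by
  rw [cast_H]
  exact summable_cubes.sum_le_tsum _ fun m _ => by positivity

theorem abs_bSeq_sub (n : ℕ) :
    |((bSeq n : ℚ) : ℝ) - (H n : ℚ) * (aSeq n : ℚ)| ≤
      zetaThree / (2 * ((n : ℝ) + 1)) * (aSeq n : ℚ) := by
  have e : bSeq n - H n * aSeq n = ∑ k ∈ range (n + 1), P n k ^ 2 * corr n k := by
    rw [bSeq, aSeq, Finset.mul_sum, ← Finset.sum_sub_distrib]
    exact Finset.sum_congr rfl fun k _ => by rw [cval]; ring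
  rw [← Rat.cast_mul, ← Rat.cast_sub, e, aSeq, Rat.cast_sum, Rat.cast_sum, Finset.mul_sum]
  refine (Finset.abs_sum_le_sum_abs _ _).trans (Finset.sum_le_sum fun k hk => ?_)
  have hkn : k ≤ n := Nat.lt_succ_iff.mp (Finset.mem_range.mp hk)
  push_cast
  rw [abs_mul, abs_pow, sq_abs, mul_comm]
  refine mul_le_mul_of_nonneg_right ?_ (sq_nonneg _)
  rw [corr]
  push_cast
  refine (Finset.abs_sum_le_sum_abs _ _).trans ?_
  calc ∑ m ∈ range k, |(-1) ^ m / (2 * ((m : ℝ) + 1) ^ 3 * (P n (m + 1) : ℝ))|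
      ≤ ∑ m ∈ range k, 1 / ((m : ℝ) + 1) ^ 3 / (2 * ((n : ℝ) + 1)) :=
        Finset.sum_le_sum fun m hm => by
          have hmk : m + 1 ≤ n := by rw [Finset.mem_range] at hm; omega
          have hP : ((n : ℝ) + 1) ≤ (P n (m + 1) : ℝ) := by
            have h1 := Nat.choose_pos hmk
            have h2 : n + 1 ≤ (n + (m + 1)).choose (m + 1) := by
              rw [← Nat.choose_symm (Nat.le_add_left _ _), Nat.add_sub_cancel]
              calc n + 1 = (n + 1).choose n := (Nat.choose_succ_self_right n).symm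
                _ ≤ (n + (m + 1)).choose n := Nat.choose_le_choose n (by omega)
            have h3 : n + 1 ≤ n.choose (m + 1) * (n + (m + 1)).choose (m + 1) :=
              h2.trans (Nat.le_mul_of_pos_left _ h1)
            simp only [P, Rat.cast_natCast]
            exact_mod_cast h3
          rw [abs_div, abs_pow, abs_neg, abs_one, one_pow,
            abs_of_pos (mul_pos (by positivity) (lt_of_lt_of_le (by positivity) hP)), div_div]
          refine one_div_le_one_div_of_le (by positivity) ?_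
          have h4 : (0 : ℝ) ≤ ((m : ℝ) + 1) ^ 3 := by positivity
          nlinarith [mul_le_mul_of_nonneg_left hP h4]
    _ ≤ zetaThree / (2 * ((n : ℝ) + 1)) := by
        rw [← Finset.sum_div]
        exact div_le_div_of_nonneg_right
          (summable_cubes.sum_le_tsum _ fun m _ => by positivity) (by positivity)

/-- `bₙ / aₙ`. -/
def ratio (n : ℕ) : ℝ := ((bSeq n : ℚ) : ℝ) / ((aSeq n : ℚ) : ℝ)

theorem ratio_succ (n : ℕ) : ratio (n + 1) = ratio n +
    6 / ((n : ℝ) + 1) ^ 3 / (((aSeq n : ℚ) : ℝ) * ((aSeq (n + 1) : ℚ) : ℝ)) := by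
  have ha : ((aSeq n : ℚ) : ℝ) ≠ 0 := Rat.cast_ne_zero.mpr (aSeq_pos n).ne'
  have hb : ((aSeq (n + 1) : ℚ) : ℝ) ≠ 0 := Rat.cast_ne_zero.mpr (aSeq_pos _).ne'
  have h := congrArg (fun x : ℚ => (x : ℝ)) (wronskian n)
  push_cast at h
  simp only [ratio]
  rw [← h]
  field_simp
  ring

theorem tendsto_ratio : Tendsto ratio atTop (𝓝 zetaThree) := by
  have h1 : Tendsto (fun n => ((H n : ℚ) : ℝ)) atTop (𝓝 zetaThree) := by
    simp only [cast_H]
    exact summable_cubes.hasSum.tendsto_sum_nat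
  have h2 : Tendsto (fun n : ℕ => zetaThree / (2 * ((n : ℝ) + 1))) atTop (𝓝 0) := by
    have := (tendsto_one_div_add_atTop_nhds_zero_nat (𝕜 := ℝ)).const_mul (zetaThree / 2)
    rw [mul_zero] at this
    exact this.congr fun n => by field_simp
  have h3 : Tendsto (fun n => ratio n - ((H n : ℚ) : ℝ)) atTop (𝓝 0) := by
    refine squeeze_zero_norm (fun n => ?_) h2
    have ha : (0 : ℝ) < ((aSeq n : ℚ) : ℝ) := Rat.cast_pos.mpr (aSeq_pos n)
    rw [Real.norm_eq_abs, ratio, div_sub' ha.ne', abs_div, abs_of_pos ha, div_le_iff₀ ha,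
      mul_comm ((aSeq n : ℚ) : ℝ)]
    exact abs_bSeq_sub n
  simpa using h3.add h1

theorem ratio_strictMono : StrictMono ratio := strictMono_nat_of_lt_succ fun n => by
  have h1 : (0 : ℝ) < ((aSeq n : ℚ) : ℝ) := Rat.cast_pos.mpr (aSeq_pos n)
  have h2 : (0 : ℝ) < ((aSeq (n + 1) : ℚ) : ℝ) := Rat.cast_pos.mpr (aSeq_pos _)
  rw [ratio_succ]
  exact lt_add_of_pos_right _ (by positivity)

theorem zetaThree_sub_ratio_le (n : ℕ) :
    zetaThree - ratio n ≤ 6 * zetaThree / ((aSeq n : ℚ) : ℝ) ^ 2 := by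
  have hmono : Monotone fun n => ((aSeq n : ℚ) : ℝ) := monotone_nat_of_le_succ fun m =>
    Rat.cast_le.mpr ((le_mul_of_one_le_left (aSeq_pos m).le (by norm_num)).trans
      (five_mul_aSeq_le m))
  have hA : (0 : ℝ) < ((aSeq n : ℚ) : ℝ) := Rat.cast_pos.mpr (aSeq_pos n)
  have key : ∀ m, n ≤ m →
      ratio m - ratio n ≤ 6 / ((aSeq n : ℚ) : ℝ) ^ 2 * (((H m : ℚ) : ℝ) - (H n : ℚ)) := by
    intro m hm
    induction m, hm using Nat.le_induction with
    | base => simp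
    | succ m hm ih =>
      have e : ((H (m + 1) : ℚ) : ℝ) = (H m : ℚ) + 1 / ((m : ℝ) + 1) ^ 3 := by
        rw [cast_H, cast_H, Finset.sum_range_succ]
      have h1 : 6 / ((m : ℝ) + 1) ^ 3 / (((aSeq m : ℚ) : ℝ) * ((aSeq (m + 1) : ℚ) : ℝ)) ≤
          6 / ((aSeq n : ℚ) : ℝ) ^ 2 * (1 / ((m : ℝ) + 1) ^ 3) := by
        rw [show 6 / ((aSeq n : ℚ) : ℝ) ^ 2 * (1 / ((m : ℝ) + 1) ^ 3) =
          6 / ((m : ℝ) + 1) ^ 3 / ((aSeq n : ℚ) : ℝ) ^ 2 by field_simp, sq]
        exact div_le_div_of_nonneg_left (by positivity) (by positivity)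
          (mul_le_mul (hmono hm) (hmono (by omega)) hA.le (hA.le.trans (hmono hm)))
      rw [ratio_succ, e]
      nlinarith
  refine le_of_tendsto (tendsto_ratio.sub_const (ratio n)) ?_
  filter_upwards [eventually_ge_atTop n] with m hm
  refine (key m hm).trans ?_
  rw [mul_div_right_comm]
  refine mul_le_mul_of_nonneg_left ?_ (by positivity)
  have : (0 : ℝ) ≤ ((H n : ℚ) : ℝ) := by rw [cast_H]; positivity
  linarith [H_le m]

/-- **The theorem of Apéry.** -/
theorem irrational_zetaThree : Irrational zetaThree := by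
  rintro ⟨r, hr⟩
  obtain ⟨C, hC0, hC⟩ := exists_lcmUpto_le
  set q : ℝ := (r.den : ℝ)
  have hq : 0 < q := Nat.cast_pos.mpr r.den_pos
  have hz : 0 ≤ zetaThree := tsum_nonneg fun n => by positivity
  set K := 2 * q * (6 * zetaThree) * C ^ 3 * 30 ^ 12
  have hlim : Tendsto (fun n : ℕ => K * ((31 / 10) ^ 3 / 30 : ℝ) ^ n) atTop (𝓝 0) := by
    simpa using (tendsto_pow_atTop_nhds_zero_of_lt_one (by norm_num)
      (by norm_num : ((31 / 10) ^ 3 / 30 : ℝ) < 1)).const_mul K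
  obtain ⟨n, hn1, hn⟩ :=
    ((hlim.eventually (gt_mem_nhds one_pos)).and (eventually_ge_atTop 12)).exists
  obtain ⟨u, hu⟩ := isI_aSeq n
  obtain ⟨v, hv⟩ := isI_bSeq n
  set d : ℝ := (Nat.lcmUpto n : ℝ)
  set A : ℝ := ((aSeq n : ℚ) : ℝ)
  have hA : 0 < A := Rat.cast_pos.mpr (aSeq_pos n)
  have hd : 0 < d := Nat.cast_pos.mpr (Nat.lcmUpto_pos n)
  set X : ℤ := 2 * (Nat.lcmUpto n : ℤ) ^ 3 * r.num * u - r.den * v
  have hX : (X : ℝ) = 2 * d ^ 3 * q * A * (zetaThree - ratio n) := by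
    have e1 : (v : ℝ) = 2 * d ^ 3 * ((bSeq n : ℚ) : ℝ) := by
      have := congrArg (fun x : ℚ => (x : ℝ)) hv
      push_cast at this
      exact this.symm
    have e2 : (u : ℝ) = A := by
      have := congrArg (fun x : ℚ => (x : ℝ)) hu
      push_cast at this
      exact this.symm
    have e3 : q * zetaThree = (r.num : ℝ) := by
      rw [← hr, Rat.cast_def]
      simp only [q]
      field_simp
    simp only [X]
    push_cast
    rw [e1, e2, ← e3, ratio]
    simp only [q, d, A]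
    have : ((aSeq n : ℚ) : ℝ) ≠ 0 := hA.ne'
    field_simp
  have hpos : 0 < zetaThree - ratio n := sub_pos.mpr
    ((ratio_strictMono (Nat.lt_succ_self n)).trans_le
      (ratio_strictMono.monotone.ge_of_tendsto tendsto_ratio (n + 1)))
  have h1 : (1 : ℝ) ≤ X := by
    have : (0 : ℝ) < X := by rw [hX]; positivity
    exact_mod_cast (show (0 : ℤ) < X by exact_mod_cast this)
  have h30 : (30 : ℝ) ^ n ≤ 30 ^ 12 * A := by
    have := (Rat.cast_le (K := ℝ)).mpr (pow_thirty_le n hn)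
    push_cast at this
    exact this
  have h2 : (X : ℝ) ≤ K * ((31 / 10) ^ 3 / 30 : ℝ) ^ n := by
    rw [hX]
    calc 2 * d ^ 3 * q * A * (zetaThree - ratio n)
        ≤ 2 * d ^ 3 * q * A * (6 * zetaThree / A ^ 2) :=
          mul_le_mul_of_nonneg_left (zetaThree_sub_ratio_le n) (by positivity)
      _ = 2 * q * (6 * zetaThree) * d ^ 3 / A := by field_simp
      _ ≤ 2 * q * (6 * zetaThree) * (C * (31 / 10) ^ n) ^ 3 / A :=
          div_le_div_of_nonneg_right
            (mul_le_mul_of_nonneg_left (pow_le_pow_left₀ hd.le (hC n) 3) (by positivity)) hA.le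
      _ ≤ 2 * q * (6 * zetaThree) * (C * (31 / 10) ^ n) ^ 3 / ((30 : ℝ) ^ n / 30 ^ 12) :=
          div_le_div_of_nonneg_left (by positivity) (by positivity)
            (by rw [div_le_iff₀ (by positivity), mul_comm]; exact h30)
      _ = K * ((31 / 10) ^ 3 / 30 : ℝ) ^ n := by
          simp only [K, mul_pow, div_pow, ← pow_mul, mul_comm n 3]
          field_simp
  linarith

end FA.Apery

end
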