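import Mathlib

/-!
# Irrationality measures from linear forms

Integer forms `aₙ x - bₙ` with `|aₙ| ≤ A ^ n` and `B ^ (-n) ≤ |aₙ x - bₙ| ≤ η ^ n`, `η < 1`, give
`|x - p / q| ≥ c / q ^ κ` once `A B η ^ κ ≤ 1`; and a sequence whose increments shrink by a factor
nine is as near to its limit as its last increment, up to the factors `7 / 8` and `9 / 8`.
-/

open Filter Topology

noncomputable section

namespace FA.Apery

/-- **The irrationality measure of a sequence of small integer forms.** -/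
theorem exists_measure {x A B η : ℝ} {κ : ℕ} (a b : ℕ → ℤ) (hA : 1 ≤ A) (hB : 1 ≤ B)
    (hη : 0 < η) (hη1 : η < 1) (hκ : A * B * η ^ κ ≤ 1)
    (h : ∀ᶠ n : ℕ in atTop, |(a n : ℝ)| ≤ A ^ n ∧ (B ^ n)⁻¹ ≤ |a n * x - b n| ∧
      |a n * x - b n| ≤ η ^ n) :
    ∃ c : ℝ, 0 < c ∧ ∀ (p : ℤ) (q : ℕ), 0 < q → c / (q : ℝ) ^ κ ≤ |x - p / q| := by
  obtain ⟨n₀, hn₀⟩ := eventually_atTop.1 h
  refine ⟨min (η ^ (κ * n₀)) ((η / 2) ^ κ), lt_min (by positivity) (by positivity),
    fun p q hq => ?_⟩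
  have hq1 : (1 : ℝ) ≤ q := by exact_mod_cast hq
  have hex : ∃ n, n₀ ≤ n ∧ (q : ℝ) * η ^ n < 1 / 2 := by
    have hlim := ((tendsto_pow_atTop_nhds_zero_of_lt_one hη.le hη1).const_mul (q : ℝ))
    rw [mul_zero] at hlim
    obtain ⟨n, hn⟩ := ((eventually_ge_atTop n₀).and
      (hlim.eventually_lt_const (show (0 : ℝ) < 1 / 2 by norm_num))).exists
    exact ⟨n, hn⟩
  classical
  set n := Nat.find hex with hn
  obtain ⟨hn1, hnq⟩ := Nat.find_spec hex
  rw [← hn] at hn1 hnq
  obtain ⟨ha, hlow, hupp⟩ := hn₀ n hn1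
  set L := (a n : ℝ) * x - b n with hL
  have hkey : (q : ℝ) * η ^ (κ * n) ≤ |(q : ℝ) * x - p| := by
    by_contra hlt
    rw [not_le] at hlt
    have hAB : (A : ℝ) ^ n * B ^ n * η ^ (κ * n) ≤ 1 := by
      rw [pow_mul, ← mul_pow, ← mul_pow]
      exact pow_le_one₀ (by positivity) hκ
    have hsmall : A ^ n * |(q : ℝ) * x - p| < q * (B ^ n)⁻¹ := by
      calc A ^ n * |(q : ℝ) * x - p| < A ^ n * (q * η ^ (κ * n)) :=
            mul_lt_mul_of_pos_left hlt (by positivity)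
        _ = (A ^ n * B ^ n * η ^ (κ * n)) * (q * (B ^ n)⁻¹) := by field_simp
        _ ≤ _ := mul_le_of_le_one_left (by positivity) hAB
    set J : ℤ := a n * p - b n * q with hJ
    have hJe : (J : ℝ) = q * L - a n * ((q : ℝ) * x - p) := by
      rw [hJ, hL]; push_cast; ring
    have herr : |(a n : ℝ) * ((q : ℝ) * x - p)| ≤ A ^ n * |(q : ℝ) * x - p| := by
      rw [abs_mul]; exact mul_le_mul_of_nonneg_right ha (abs_nonneg _)
    have hmain : (q : ℝ) * (B ^ n)⁻¹ ≤ |(q : ℝ) * L| ∧ |(q : ℝ) * L| < 1 / 2 := by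
      rw [abs_mul, Nat.abs_cast]
      exact ⟨mul_le_mul_of_nonneg_left hlow (by positivity),
        lt_of_le_of_lt (mul_le_mul_of_nonneg_left hupp (by positivity)) hnq⟩
    have hJ0 : J ≠ 0 := by
      intro h0
      rw [h0, Int.cast_zero] at hJe
      rw [show (q : ℝ) * L = a n * ((q : ℝ) * x - p) by linarith] at hmain
      linarith [hmain.1]
    have h1 : (1 : ℝ) ≤ |(J : ℝ)| := by exact_mod_cast Int.one_le_abs hJ0
    rw [hJe] at h1
    linarith [abs_sub ((q : ℝ) * L) (a n * ((q : ℝ) * x - p)), hmain.1, hmain.2]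
  have hpow : (min (η ^ (κ * n₀)) ((η / 2) ^ κ)) / (q : ℝ) ^ κ ≤ η ^ (κ * n) := by
    rw [div_le_iff₀ (by positivity)]
    rcases eq_or_lt_of_le hn1 with heq | hlt
    · rw [← heq]
      exact le_trans (min_le_left _ _) (le_mul_of_one_le_right (by positivity) (one_le_pow₀ hq1))
    obtain ⟨n', hn'⟩ : ∃ n', n = n' + 1 := ⟨n - 1, by omega⟩
    have hmin : (1 : ℝ) / 2 ≤ q * η ^ n' := by
      have := Nat.find_min hex (show n' < n by omega)
      rw [not_and, not_lt] at this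
      exact this (by omega)
    refine le_trans (min_le_right _ _) ?_
    rw [mul_comm κ n, pow_mul, ← mul_pow, hn', pow_succ]
    refine pow_le_pow_left₀ (by positivity) ?_ κ
    nlinarith
  have hq0 : (0 : ℝ) < q := by linarith
  calc (min (η ^ (κ * n₀)) ((η / 2) ^ κ)) / (q : ℝ) ^ κ ≤ η ^ (κ * n) := hpow
    _ = q * η ^ (κ * n) / q := by field_simp
    _ ≤ |(q : ℝ) * x - p| / q := by gcongr
    _ = |x - p / q| := by
        rw [show x - p / q = ((q : ℝ) * x - p) / q by field_simp, abs_div, abs_of_pos hq0]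

/-- The distance to the limit is of the size of the next increment. -/
theorem increment_bounds {r t : ℕ → ℝ} {x : ℝ} (ht0 : ∀ n, 0 ≤ t n)
    (hr : ∀ n, |r (n + 1) - r n| = t n) (ht : ∀ n, t (n + 1) ≤ t n / 9)
    (hx : Tendsto r atTop (𝓝 x)) (n : ℕ) :
    7 / 8 * t n ≤ |x - r n| ∧ |x - r n| ≤ 9 / 8 * t n := by
  have key : ∀ n m, n ≤ m → |r m - r n| ≤ 9 / 8 * (t n - t m) := by
    intro n m hm
    induction m, hm using Nat.le_induction with
    | base => simp
    | succ m hm ih =>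
      refine le_trans (abs_sub_le (r (m + 1)) (r m) (r n)) ?_
      rw [hr m]
      linarith [ht m]
  have hup : ∀ n, |x - r n| ≤ 9 / 8 * t n := fun n => by
    refine le_of_tendsto (hx.sub_const (r n)).abs ?_
    filter_upwards [eventually_ge_atTop n] with m hm
    linarith [key n m hm, ht0 m]
  refine ⟨?_, hup n⟩
  have h1 := abs_sub_le (r (n + 1)) x (r n)
  rw [hr n, abs_sub_comm (r (n + 1)) x] at h1
  linarith [hup (n + 1), ht n, ht0 n]

/-- A number with an irrationality measure is irrational. -/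
theorem irrational_of_measure {x c : ℝ} {κ : ℕ} (hc : 0 < c)
    (h : ∀ (p : ℤ) (q : ℕ), 0 < q → c / (q : ℝ) ^ κ ≤ |x - p / q|) : Irrational x := by
  rintro ⟨r, rfl⟩
  have h1 := h r.num r.den r.den_pos
  rw [← Rat.cast_def, sub_self, abs_zero] at h1
  have : 0 < c / (r.den : ℝ) ^ κ := div_pos hc (pow_pos (Nat.cast_pos.2 r.den_pos) κ)
  linarith

/-- A number with an irrationality measure is not a Liouville number. -/
theorem not_liouville_of_measure {x c : ℝ} {κ : ℕ} (hc : 0 < c)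
    (h : ∀ (p : ℤ) (q : ℕ), 0 < q → c / (q : ℝ) ^ κ ≤ |x - p / q|) : ¬Liouville x := by
  intro hL
  obtain ⟨k, hk⟩ := pow_unbounded_of_one_lt (1 / c) one_lt_two
  obtain ⟨p, b, hb, -, hlt⟩ := hL (κ + k)
  lift b to ℕ using (by omega) with q
  push_cast at hlt
  have hq : (2 : ℝ) ≤ q := by exact_mod_cast (show 2 ≤ q by omega)
  have h1 := h p q (by omega)
  have h2 : c < 1 / (q : ℝ) ^ k := by
    have h3 := lt_of_le_of_lt h1 hlt
    rw [pow_add, div_lt_div_iff₀ (by positivity) (by positivity)] at h3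
    rw [lt_div_iff₀ (by positivity)]
    nlinarith [pow_pos (show (0 : ℝ) < q by linarith) κ]
  rw [lt_div_iff₀ (by positivity)] at h2
  rw [div_lt_iff₀ hc] at hk
  nlinarith [pow_le_pow_left₀ (by norm_num : (0 : ℝ) ≤ 2) hq k]

end FA.Apery
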