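import Fermat.Agent.Apery.Irrational

/-!
# Apéry's numbers for `ζ(2)`

`aTwo n = ∑_k C(n, k) ² C(n + k, k)` and the companion numerators `bTwo n` satisfy
`(n + 1) ² uₙ₊₁ = (11 n ² + 11 n + 3) uₙ + n ² uₙ₋₁`, their determinant is `5 (-1) ^ n / (n + 1) ²`
and `lcm (1, …, n) ² bTwo n` is an integer (Apéry 1978, after van der Poorten's account).
-/

noncomputable section

namespace FA.Apery

open Finset

/-- `C(n, k) ² C(n + k, k)`. -/
def PTwo (n k : ℕ) : ℚ := (n.choose k : ℚ) * P n k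

/-- `∑_{m < n} (-1) ^ m / (m + 1) ²`. -/
def HTwo (n : ℕ) : ℚ := ∑ m ∈ range n, (-1) ^ m / ((m : ℚ) + 1) ^ 2

/-- The correction sum. -/
def corrTwo (n k : ℕ) : ℚ :=
  ∑ m ∈ range k, (-1) ^ (n + m) / (((m : ℚ) + 1) ^ 2 * P n (m + 1))

/-- The numbers `c_{n, k}`. -/
def cvalTwo (n k : ℕ) : ℚ := 2 * HTwo n + corrTwo n k

/-- Apéry's denominators for `ζ(2)`. -/
def aTwo (n : ℕ) : ℚ := ∑ k ∈ range (n + 1), PTwo n k

/-- Apéry's numerators for `ζ(2)`. -/
def bTwo (n : ℕ) : ℚ := ∑ k ∈ range (n + 1), PTwo n k * cvalTwo n k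

/-- The middle coefficient of the recurrence. -/
def polTwo (n : ℚ) : ℚ := 11 * n ^ 2 + 11 * n + 3

theorem cvalTwo_succ (n k : ℕ) :
    cvalTwo n (k + 1) = cvalTwo n k + (-1) ^ (n + k) / (((k : ℚ) + 1) ^ 2 * P n (k + 1)) := by
  rw [cvalTwo, cvalTwo, corrTwo, corrTwo, sum_range_succ, add_assoc]

theorem cvalTwo_succ_left {n k : ℕ} (h : k ≤ n) :
    cvalTwo (n + 1) k = cvalTwo n k +
      2 * (-1) ^ (n + k) / (((n : ℚ) + 1) * ((n : ℚ) + 1 - k) * P (n + 1) k) := by
  induction k with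
  | zero =>
    simp only [cvalTwo, corrTwo, HTwo, sum_range_zero, sum_range_succ, P_zero, Nat.cast_zero]
    ring
  | succ k ih =>
    rw [cvalTwo_succ, cvalTwo_succ, ih (by omega)]
    have hk : (k : ℚ) + 1 ≤ n := by exact_mod_cast h
    have hR : P n (k + 1) ≠ 0 := (P_pos h).ne'
    have h1 : ((n : ℚ) - k) ≠ 0 := by linarith
    have h2 : ((n : ℚ) + 1 - k) ≠ 0 := by linarith
    have h3 : ((n : ℚ) + k + 2) ≠ 0 := by positivity
    have h4 : ((k : ℚ) + 1) ≠ 0 := by positivity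
    have h5 : ((n : ℚ) + 1) ≠ 0 := by positivity
    have e1 : P (n + 1) (k + 1) = ((n : ℚ) + k + 2) * P n (k + 1) / ((n : ℚ) - k) := by
      rw [eq_div_iff h1]
      have := P_succ_left (n := n) (k := k + 1) (by omega)
      push_cast at this
      linear_combination this
    have e2 : P (n + 1) k =
        ((k : ℚ) + 1) ^ 2 * P (n + 1) (k + 1) / (((n : ℚ) + k + 2) * ((n : ℚ) + 1 - k)) := by
      rw [eq_div_iff (mul_ne_zero h3 h2)]
      have := P_succ_right (n := n + 1) (k := k) (by omega)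
      push_cast at this
      linear_combination -this
    have h1' : ((n : ℚ) + 1 - (k + 1)) ≠ 0 := by rw [add_sub_add_right_eq_sub]; exact h1
    rw [e2, e1, ← add_assoc n k 1, pow_succ, show n + 1 + k = n + k + 1 by omega, pow_succ]
    push_cast
    field_simp
    ring

/-- The telescoping function of the denominators, shifted by one. -/
def telATwo (n : ℕ) : ℕ → ℚ
  | 0 => 0
  | k + 1 => ((k : ℚ) ^ 2 + 3 * (2 * n + 1) * k - 11 * n ^ 2 - 9 * n - 2) * PTwo n k

/-- The telescoping function of the numerators, shifted by one. -/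
def telBTwo (n : ℕ) : ℕ → ℚ
  | 0 => 0
  | k + 1 => ((k : ℚ) ^ 2 + 3 * (2 * n + 1) * k - 11 * n ^ 2 - 9 * n - 2) *
      (PTwo n k * cvalTwo n k) - 3 * (-1) ^ (n + k) * k / (n : ℚ) * n.choose k

theorem choose_cast_succ_left {n k : ℕ} (h : k ≤ n + 1) :
    ((n : ℚ) + 1 - k) * (n + 1).choose k = ((n : ℚ) + 1) * n.choose k := by
  have e := congrArg (fun x : ℕ => (x : ℚ)) (Nat.choose_mul_succ_eq n k)
  simp only [Nat.cast_mul, Nat.cast_add, Nat.cast_one, Nat.cast_sub h] at e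
  linear_combination -e

theorem choose_cast_succ_right {n k : ℕ} (h : k ≤ n) :
    ((k : ℚ) + 1) * n.choose (k + 1) = ((n : ℚ) - k) * n.choose k := by
  have e := congrArg (fun x : ℕ => (x : ℚ)) (Nat.choose_succ_right_eq n k)
  simp only [Nat.cast_mul, Nat.cast_add, Nat.cast_one, Nat.cast_sub h] at e
  linear_combination e

theorem telescopeTwo_last (j : ℕ) :
    ((j : ℚ) + 2) ^ 2 * PTwo (j + 2) (j + 2) = -telATwo (j + 1) (j + 2) ∧
    ((j : ℚ) + 2) ^ 2 * (PTwo (j + 2) (j + 2) * cvalTwo (j + 2) (j + 2)) =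
      -telBTwo (j + 1) (j + 2) := by
  set R := P (j + 1) (j + 1)
  have hR : R ≠ 0 := (P_pos le_rfl).ne'
  have hj : (j : ℚ) + 1 ≠ 0 := by positivity
  have hj2 : (j : ℚ) + 2 ≠ 0 := by positivity
  have hj3 : (2 * (j : ℚ) + 3) ≠ 0 := by positivity
  have e1 : P (j + 2) (j + 1) = (2 * (j : ℚ) + 3) * R := by
    have := P_succ_left (n := j + 1) (k := j + 1) (by omega)
    push_cast at this
    linear_combination this
  have e2 : P (j + 2) (j + 2) = (2 * (2 * (j : ℚ) + 3)) * R / ((j : ℚ) + 2) := by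
    rw [eq_div_iff hj2]
    have := P_succ_right (n := j + 2) (k := j + 1) (by omega)
    push_cast at this
    rw [e1] at this
    refine mul_left_cancel₀ hj2 ?_
    linear_combination this
  constructor
  · simp only [telATwo, PTwo, Nat.choose_self, e2]
    push_cast
    field_simp
    ring
  · simp only [telBTwo, PTwo, Nat.choose_self]
    rw [cvalTwo_succ, cvalTwo_succ_left (n := j + 1) le_rfl, e1, e2,
      show j + 2 + (j + 1) = j + 1 + (j + 1) + 1 by omega, pow_succ]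
    push_cast
    field_simp
    ring

theorem telescopeTwo {j k : ℕ} (h : k ≤ j + 1) :
    ((j : ℚ) + 2) ^ 2 * PTwo (j + 2) k - polTwo ((j : ℚ) + 1) * PTwo (j + 1) k -
      ((j : ℚ) + 1) ^ 2 * PTwo j k = telATwo (j + 1) (k + 1) - telATwo (j + 1) k ∧
    ((j : ℚ) + 2) ^ 2 * (PTwo (j + 2) k * cvalTwo (j + 2) k) -
      polTwo ((j : ℚ) + 1) * (PTwo (j + 1) k * cvalTwo (j + 1) k) -
      ((j : ℚ) + 1) ^ 2 * (PTwo j k * cvalTwo j k) =
        telBTwo (j + 1) (k + 1) - telBTwo (j + 1) k := by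
  set R := P (j + 1) k
  set X : ℚ := (((j + 1).choose k : ℕ) : ℚ)
  set c := cvalTwo (j + 1) k
  have hR : R ≠ 0 := (P_pos h).ne'
  have hk : (k : ℚ) ≤ (j : ℚ) + 1 := by exact_mod_cast h
  have h1 : ((j : ℚ) + 2 - k) ≠ 0 := by linarith
  have h2 : ((j : ℚ) + 1 + k) ≠ 0 := by positivity
  have h3 : ((j : ℚ) + 1) ≠ 0 := by positivity
  have h4 : ((j : ℚ) + 2) ≠ 0 := by positivity
  have h5 : ((j : ℚ) + 2 + k) ≠ 0 := by positivity
  have eu : P (j + 2) k = ((j : ℚ) + 2 + k) * R / ((j : ℚ) + 2 - k) := by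
    rw [eq_div_iff h1]
    have := P_succ_left (n := j + 1) (k := k) (by omega)
    push_cast at this
    linear_combination this
  have eu' : (((j + 2).choose k : ℕ) : ℚ) = ((j : ℚ) + 2) * X / ((j : ℚ) + 2 - k) := by
    rw [eq_div_iff h1]
    have := choose_cast_succ_left (n := j + 1) (k := k) (by omega)
    push_cast at this
    linear_combination this
  have ev : P j k = ((j : ℚ) + 1 - k) * R / ((j : ℚ) + 1 + k) := by
    rw [eq_div_iff h2]
    have := P_succ_left (n := j) (k := k) h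
    linear_combination -this
  have ev' : ((j.choose k : ℕ) : ℚ) = ((j : ℚ) + 1 - k) * X / ((j : ℚ) + 1) := by
    rw [eq_div_iff h3]
    have := choose_cast_succ_left (n := j) (k := k) h
    linear_combination -this
  have ecu : cvalTwo (j + 2) k =
      c + 2 * (-1) ^ (j + 1 + k) / (((j : ℚ) + 2) * ((j : ℚ) + 2 + k) * R) := by
    rw [cvalTwo_succ_left (n := j + 1) h, eu]
    push_cast
    rw [show (j : ℚ) + 1 + 1 = j + 2 by ring]
    simp only [c]
    field_simp
  have ew : PTwo j k * cvalTwo j k =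
      ((j : ℚ) + 1 - k) * X / ((j : ℚ) + 1) * (((j : ℚ) + 1 - k) * R / ((j : ℚ) + 1 + k)) * c -
        2 * (-1) ^ (j + k) * ((j : ℚ) + 1 - k) * X /
          (((j : ℚ) + 1) ^ 2 * ((j : ℚ) + 1 + k)) := by
    rcases h.lt_or_eq with hlt | rfl
    · have hd := cvalTwo_succ_left (n := j) (k := k) (by omega)
      have h6 : ((j : ℚ) + 1 - k) ≠ 0 := by
        have : (k : ℚ) + 1 ≤ (j : ℚ) + 1 := by exact_mod_cast hlt
        linarith
      rw [show cvalTwo j k = c - 2 * (-1) ^ (j + k) /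
          (((j : ℚ) + 1) * ((j : ℚ) + 1 - k) * R) from eq_sub_of_add_eq hd.symm, PTwo, ev, ev']
      field_simp
    · rw [PTwo, P_eq_zero (Nat.lt_succ_self j)]
      push_cast
      ring
  set R₁ := (k : ℚ) ^ 2 * R / (((j : ℚ) + 1 + k) * ((j : ℚ) + 2 - k))
  set X₁ := (k : ℚ) * X / ((j : ℚ) + 2 - k)
  set q := ((k : ℚ) - 1) ^ 2 + 3 * (2 * ((j : ℚ) + 1) + 1) * (k - 1) - 11 * ((j : ℚ) + 1) ^ 2 -
    9 * ((j : ℚ) + 1) - 2
  have es : telATwo (j + 1) k = q * (X₁ * R₁) ∧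
      telBTwo (j + 1) k = q * (X₁ * R₁ * c) +
        q * k * (-1) ^ (j + 1 + k) * X / (((j : ℚ) + 1 + k) * ((j : ℚ) + 2 - k) ^ 2) +
        3 * (-1) ^ (j + 1 + k) * ((k : ℚ) - 1) / ((j : ℚ) + 1) * X₁ := by
    rcases Nat.eq_zero_or_pos k with rfl | hpos
    · simp [telATwo, telBTwo, R₁, X₁]
    obtain ⟨i, rfl⟩ := Nat.exists_eq_add_of_le' hpos
    push_cast at h1 h2 h5 hk
    have hi : (i : ℚ) + 1 ≠ 0 := by positivity
    have eP : P (j + 1) i = R₁ := by
      have := P_succ_right (n := j + 1) (k := i) (by omega)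
      simp only [R₁]
      push_cast at this ⊢
      rw [eq_div_iff (mul_ne_zero h2 h1)]
      linear_combination -this
    have eX : (((j + 1).choose i : ℕ) : ℚ) = X₁ := by
      have := choose_cast_succ_right (n := j + 1) (k := i) (by omega)
      simp only [X₁]
      push_cast at this ⊢
      rw [eq_div_iff h1]
      linear_combination -this
    have ec : cvalTwo (j + 1) i = c - (-1) ^ (j + 1 + i) / (((i : ℚ) + 1) ^ 2 * R) :=
      eq_sub_of_add_eq (cvalTwo_succ (j + 1) i).symm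
    constructor
    · simp only [telATwo, PTwo, eP, eX, q]
      push_cast
      ring
    · simp only [telBTwo, PTwo, eP, eX, ec, ← add_assoc (j + 1) i 1, pow_succ]
      simp only [q, R₁, X₁]
      push_cast
      field_simp
      ring
  constructor
  · rw [es.1]
    simp only [telATwo, PTwo, eu, eu', ev, ev', polTwo, q, R₁, X₁]
    push_cast
    field_simp
    ring
  · rw [ew, ecu, es.2]
    simp only [telBTwo, PTwo, eu, eu', polTwo, q, R₁, X₁]
    rw [show j + 1 + k = j + k + 1 by omega, pow_succ]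
    push_cast
    have hR' : P (j + 1) k ≠ 0 := hR
    simp only [X, R, c]
    field_simp
    ring

/-- **The recurrence.** -/
theorem recurrenceTwo (j : ℕ) :
    ((j : ℚ) + 2) ^ 2 * aTwo (j + 2) - polTwo ((j : ℚ) + 1) * aTwo (j + 1) -
      ((j : ℚ) + 1) ^ 2 * aTwo j = 0 ∧
    ((j : ℚ) + 2) ^ 2 * bTwo (j + 2) - polTwo ((j : ℚ) + 1) * bTwo (j + 1) -
      ((j : ℚ) + 1) ^ 2 * bTwo j = 0 := by
  have ext : ∀ (n m : ℕ) (f : ℕ → ℚ), n ≤ m →
      ∑ k ∈ range (n + 1), PTwo n k * f k = ∑ k ∈ range (m + 1), PTwo n k * f k :=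
    fun n m f hnm => sum_subset (range_subset_range.mpr (by omega)) fun k _ hk => by
      rw [mem_range, not_lt] at hk
      rw [PTwo, P_eq_zero hk]; ring
  have h0 := ext j (j + 2)
  have h1 := ext (j + 1) (j + 2)
  have ha : ∀ n, aTwo n = ∑ k ∈ range (n + 1), PTwo n k * (1 : ℚ) := fun n => by simp [aTwo]
  have z0 : ∀ n, n < j + 2 → PTwo n (j + 2) = 0 := fun n hn => by
    rw [PTwo, P_eq_zero hn, mul_zero]
  constructor
  · rw [ha, ha, ha, h0 _ (by omega), h1 _ (by omega), mul_sum, mul_sum, mul_sum,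
      ← sum_sub_distrib, ← sum_sub_distrib, sum_range_succ, z0 j (by omega),
      z0 (j + 1) (by omega)]
    simp only [mul_one]
    rw [sum_congr rfl fun k hk => (telescopeTwo (j := j) (k := k)
      (Nat.lt_succ_iff.mp (mem_range.mp hk))).1, sum_range_sub, (telescopeTwo_last j).1]
    simp [telATwo]
  · rw [bTwo, bTwo, bTwo, h0 _ (by omega), h1 _ (by omega), mul_sum, mul_sum, mul_sum,
      ← sum_sub_distrib, ← sum_sub_distrib, sum_range_succ, z0 j (by omega),
      z0 (j + 1) (by omega)]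
    rw [sum_congr rfl fun k hk => (telescopeTwo (j := j) (k := k)
      (Nat.lt_succ_iff.mp (mem_range.mp hk))).2, sum_range_sub, (telescopeTwo_last j).2]
    simp [telBTwo]

theorem aTwo_zero : aTwo 0 = 1 := by simp [aTwo, PTwo, P]
theorem aTwo_one : aTwo 1 = 3 := by norm_num [aTwo, PTwo, P, sum_range_succ]
theorem bTwo_zero : bTwo 0 = 0 := by simp [bTwo, cvalTwo, HTwo, corrTwo]
theorem bTwo_one : bTwo 1 = 5 := by
  norm_num [bTwo, cvalTwo, HTwo, corrTwo, PTwo, P, sum_range_succ]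

/-- **The determinant.** -/
theorem wronskianTwo (n : ℕ) :
    aTwo n * bTwo (n + 1) - aTwo (n + 1) * bTwo n = 5 * (-1) ^ n / ((n : ℚ) + 1) ^ 2 := by
  induction n with
  | zero => norm_num [aTwo_zero, aTwo_one, bTwo_zero, bTwo_one]
  | succ n ih =>
    obtain ⟨ra, rb⟩ := recurrenceTwo n
    have h1 : ((n : ℚ) + 1) ^ 2 ≠ 0 := by positivity
    have h2 : ((n : ℚ) + 2) ^ 2 ≠ 0 := by positivity
    rw [eq_div_iff h1] at ih
    push_cast
    rw [show (n : ℚ) + 1 + 1 = n + 2 by ring, eq_div_iff h2, pow_succ (-1 : ℚ) n]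
    linear_combination aTwo (n + 1) * rb - bTwo (n + 1) * ra - ih

theorem isI_aTwo (n : ℕ) : IsI (aTwo n) :=
  isI_sum _ fun k _ => ⟨((n.choose k * (n.choose k * (n + k).choose k) : ℕ) : ℤ), by
    simp [PTwo, P]⟩

theorem isI_bTwo (n : ℕ) : IsI ((Nat.lcmUpto n : ℚ) ^ 2 * bTwo n) := by
  rw [bTwo, Finset.mul_sum]
  refine isI_sum _ fun k hk => ?_
  have hkn : k ≤ n := Nat.lt_succ_iff.mp (Finset.mem_range.mp hk)
  rw [cvalTwo, mul_add, mul_add, HTwo, corrTwo, Finset.mul_sum, Finset.mul_sum, Finset.mul_sum,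
    Finset.mul_sum, Finset.mul_sum]
  obtain ⟨u, hu⟩ : IsI (∑ m ∈ range n,
      (Nat.lcmUpto n : ℚ) ^ 2 * (PTwo n k * (2 * ((-1) ^ m / ((m : ℚ) + 1) ^ 2)))) :=
    isI_sum _ fun m hm => by
      have hd : m + 1 ∣ Nat.lcmUpto n := Finset.dvd_lcm (f := id)
        (Finset.mem_Icc.mpr ⟨by omega, by rw [Finset.mem_range] at hm; omega⟩)
      obtain ⟨e, he⟩ := hd
      refine ⟨(-1) ^ m * ((2 * e ^ 2 * (n.choose k * (n.choose k * (n + k).choose k)) : ℕ) : ℤ), ?_⟩
      rw [he, PTwo, P]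
      push_cast
      field_simp
  obtain ⟨v, hv⟩ : IsI (∑ m ∈ range k, (Nat.lcmUpto n : ℚ) ^ 2 *
      (PTwo n k * ((-1) ^ (n + m) / (((m : ℚ) + 1) ^ 2 * P n (m + 1))))) :=
    isI_sum _ fun m hm => by
      have hmk : m + 1 ≤ k := by rw [Finset.mem_range] at hm; omega
      have hd₁ : (m + 1) * n.choose (m + 1) ∣ Nat.lcmUpto n :=
        mul_choose_dvd_lcmUpto (by omega) (by omega)
      have hd₂ : (m + 1) * k.choose (m + 1) ∣ Nat.lcmUpto n :=
        (mul_choose_dvd_lcmUpto (by omega) hmk).trans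
          (Finset.lcm_mono (Finset.Icc_subset_Icc_right hkn))
      obtain ⟨e₁, he₁⟩ := hd₁
      obtain ⟨e₂, he₂⟩ := hd₂
      refine ⟨(-1) ^ (n + m) * ((e₁ * e₂ * n.choose k ^ 2 *
        (n + k).choose (k - (m + 1)) : ℕ) : ℤ), ?_⟩
      have hid := Nat.choose_mul (n := n + k) (k := k) (s := k - (m + 1)) (Nat.sub_le _ _)
      rw [Nat.choose_symm hmk, show n + k - (k - (m + 1)) = n + (m + 1) by omega,
        show k - (k - (m + 1)) = m + 1 by omega] at hid
      have hid' := congrArg (fun x : ℕ => (x : ℚ)) hid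
      have h1 : (n.choose (m + 1) : ℚ) ≠ 0 :=
        Nat.cast_ne_zero.mpr (Nat.choose_pos (by omega)).ne'
      have h2 : (k.choose (m + 1) : ℚ) ≠ 0 := Nat.cast_ne_zero.mpr (Nat.choose_pos hmk).ne'
      have h3 : ((n + (m + 1)).choose (m + 1) : ℚ) ≠ 0 :=
        Nat.cast_ne_zero.mpr (Nat.choose_pos (by omega)).ne'
      have h4 : ((m : ℚ) + 1) ≠ 0 := by positivity
      have f₁ := congrArg (fun x : ℕ => (x : ℚ)) he₁
      have f₂ := congrArg (fun x : ℕ => (x : ℚ)) he₂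
      push_cast at f₁ f₂ hid'
      rw [PTwo, P, P]
      push_cast
      rw [show (Nat.lcmUpto n : ℚ) ^ 2 = (((m : ℚ) + 1) * n.choose (m + 1) * e₁) *
        (((m : ℚ) + 1) * k.choose (m + 1) * e₂) by rw [← f₁, ← f₂]; ring]
      field_simp
      linear_combination ((n.choose k : ℚ) ^ 2 * e₁ * e₂) * hid'
  exact ⟨u + v, by rw [hu, hv]; push_cast; rfl⟩

theorem aTwo_pos (n : ℕ) : 0 < aTwo n :=
  Finset.sum_pos (fun k hk => by
    have h := Nat.lt_succ_iff.mp (Finset.mem_range.mp hk)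
    exact mul_pos (Nat.cast_pos.mpr (Nat.choose_pos h)) (P_pos h))
    ⟨0, Finset.mem_range.mpr (by omega)⟩

end FA.Apery
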