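import Fermat.Agent.Apery.Measure
import Fermat.Agent.Apery.ZetaTwo

/-!
# Irrationality measures of `ζ(2)` and `ζ(3)`

Apéry's forms `d² (aₙ ζ(2) - bₙ)` are at most `(441 / 500) ^ n` and at least `(56 / 5) ^ (-n)` with
coefficients at most `107 ^ n`, and `2 d³ (aₙ ζ(3) - bₙ)` lie between `35 ^ (-n)` and
`(113 / 125) ^ n` with coefficients at most `1013 ^ n`, for `d = lcm (1, …, n)` and large `n`.
-/

noncomputable section

namespace FA.Apery

open Filter Topology Finset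

theorem eventually_mul_pow_le_pow (K : ℝ) (k : ℕ) {x y : ℝ} (hx : 0 ≤ x) (hxy : x < y) :
    ∀ᶠ n : ℕ in atTop, K * ((n : ℝ) + 1) ^ k * x ^ n ≤ y ^ n := by
  have hy : 0 < y := lt_of_le_of_lt hx hxy
  have h := (tendsto_pow_const_mul_const_pow_of_lt_one k (r := x / y) (by positivity)
    ((div_lt_one hy).2 hxy)).const_mul (|K| * 2 ^ k)
  rw [mul_zero] at h
  filter_upwards [h.eventually_lt_const one_pos, eventually_ge_atTop 1] with n hn hn1
  have hn' : (1 : ℝ) ≤ n := by exact_mod_cast hn1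
  calc K * ((n : ℝ) + 1) ^ k * x ^ n ≤ |K| * (2 * (n : ℝ)) ^ k * x ^ n := by
        gcongr
        · exact le_abs_self K
        · linarith
    _ = |K| * 2 ^ k * ((n : ℝ) ^ k * (x / y) ^ n) * y ^ n := by
        rw [mul_pow, div_pow]
        field_simp
    _ ≤ 1 * y ^ n := by gcongr
    _ = _ := one_mul _

/-! ### `ζ(2)` -/

theorem three_mul_aTwo_le (n : ℕ) : 3 * aTwo n ≤ aTwo (n + 1) := by
  rcases n with _ | j
  · rw [aTwo_zero, aTwo_one]; norm_num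
  obtain ⟨h, -⟩ := recurrenceTwo j
  refine le_of_mul_le_mul_left ?_ (show (0 : ℚ) < ((j : ℚ) + 2) ^ 2 by positivity)
  simp only [polTwo] at h
  nlinarith [mul_nonneg (show (0 : ℚ) ≤ ((j : ℚ) + 1) ^ 2 by positivity) (aTwo_pos j).le,
    mul_nonneg (show (0 : ℚ) ≤ 8 * (j : ℚ) ^ 2 + 21 * j + 13 by positivity)
      (aTwo_pos (j + 1)).le]

theorem aTwo_le (n : ℕ) : aTwo n ≤ (111 / 10) ^ n ∧ aTwo (n + 1) ≤ (111 / 10) ^ (n + 1) := by
  induction n with
  | zero => rw [aTwo_zero, aTwo_one]; norm_num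
  | succ n ih =>
    refine ⟨ih.2, ?_⟩
    obtain ⟨h, -⟩ := recurrenceTwo n
    refine le_of_mul_le_mul_left ?_ (show (0 : ℚ) < ((n : ℚ) + 2) ^ 2 by positivity)
    have hp : polTwo ((n : ℚ) + 1) ≤ 11 * ((n : ℚ) + 2) ^ 2 := by
      simp only [polTwo]
      nlinarith [(Nat.cast_nonneg n : (0 : ℚ) ≤ n)]
    have hq : ((n : ℚ) + 1) ^ 2 ≤ ((n : ℚ) + 2) ^ 2 := by gcongr; norm_num
    have e : ((n : ℚ) + 2) ^ 2 * aTwo (n + 1 + 1) =
        polTwo ((n : ℚ) + 1) * aTwo (n + 1) + ((n : ℚ) + 1) ^ 2 * aTwo n := by linarith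
    have hb : (0 : ℚ) ≤ polTwo ((n : ℚ) + 1) := by simp only [polTwo]; positivity
    calc ((n : ℚ) + 2) ^ 2 * aTwo (n + 1 + 1)
        ≤ 11 * ((n : ℚ) + 2) ^ 2 * (111 / 10) ^ (n + 1) +
          ((n : ℚ) + 2) ^ 2 * (111 / 10) ^ n := by
          rw [e]
          exact add_le_add (mul_le_mul hp ih.2 (aTwo_pos _).le (by positivity))
            (mul_le_mul hq ih.1 (aTwo_pos _).le (by positivity))
      _ ≤ _ := by
          have : (0 : ℚ) ≤ ((n : ℚ) + 2) ^ 2 * (111 / 10) ^ n := by positivity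
          rw [pow_succ (111 / 10 : ℚ) (n + 1), pow_succ (111 / 10 : ℚ) n]
          nlinarith

theorem exists_aTwo_ge : ∃ K : ℝ, 0 < K ∧
    ∀ᶠ n : ℕ in atTop, (109 / 10 : ℝ) ^ n ≤ K * (aTwo n : ℚ) := by
  refine ⟨(109 / 10) ^ 110 / (aTwo 110 : ℚ),
    div_pos (by positivity) (Rat.cast_pos.2 (aTwo_pos _)), ?_⟩
  filter_upwards [eventually_ge_atTop 110] with n hn
  induction n, hn using Nat.le_induction with
  | base => rw [div_mul_cancel₀ _ (Rat.cast_pos.2 (aTwo_pos 110)).ne']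
  | succ n hn ih =>
    obtain ⟨j, rfl⟩ : ∃ j, n = j + 1 := ⟨n - 1, by omega⟩
    obtain ⟨h, -⟩ := recurrenceTwo j
    have hj : (109 : ℚ) ≤ j := by exact_mod_cast (show 109 ≤ j by omega)
    have hstep : (109 / 10 : ℚ) * aTwo (j + 1) ≤ aTwo (j + 1 + 1) := by
      refine le_of_mul_le_mul_left ?_ (show (0 : ℚ) < ((j : ℚ) + 2) ^ 2 by positivity)
      have hp : (109 / 10 : ℚ) * ((j : ℚ) + 2) ^ 2 ≤ polTwo ((j : ℚ) + 1) := by
        simp only [polTwo]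
        nlinarith
      nlinarith [mul_le_mul_of_nonneg_right hp (aTwo_pos (j + 1)).le,
        mul_nonneg (show (0 : ℚ) ≤ ((j : ℚ) + 1) ^ 2 by positivity) (aTwo_pos j).le]
    have hstep' : (109 / 10 : ℝ) * (aTwo (j + 1) : ℚ) ≤ (aTwo (j + 1 + 1) : ℚ) := by
      have := (Rat.cast_le (K := ℝ)).2 hstep
      push_cast at this
      exact this
    have hK : (0 : ℝ) ≤ (109 / 10) ^ 110 / (aTwo 110 : ℚ) :=
      div_nonneg (by positivity) (Rat.cast_pos.2 (aTwo_pos _)).le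
    rw [pow_succ]
    nlinarith [mul_le_mul_of_nonneg_left hstep' hK]

/-- `bₙ / aₙ` for `ζ(2)`. -/
def ratioTwo (n : ℕ) : ℝ := ((bTwo n : ℚ) : ℝ) / ((aTwo n : ℚ) : ℝ)

/-- The size of the increment of `ratioTwo`. -/
def stepTwo (n : ℕ) : ℝ :=
  5 / (((n : ℝ) + 1) ^ 2 * (((aTwo n : ℚ) : ℝ) * ((aTwo (n + 1) : ℚ) : ℝ)))

theorem abs_ratioTwo_succ_sub (n : ℕ) : |ratioTwo (n + 1) - ratioTwo n| = stepTwo n := by
  have ha : (0 : ℝ) < ((aTwo n : ℚ) : ℝ) := Rat.cast_pos.2 (aTwo_pos n)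
  have hb : (0 : ℝ) < ((aTwo (n + 1) : ℚ) : ℝ) := Rat.cast_pos.2 (aTwo_pos _)
  have h := congrArg (fun x : ℚ => (x : ℝ)) (wronskianTwo n)
  push_cast at h
  rw [ratioTwo, ratioTwo, div_sub_div _ _ hb.ne' ha.ne', mul_comm ((bTwo (n + 1) : ℚ) : ℝ), h,
    abs_div, abs_div, abs_mul, abs_pow, abs_neg, abs_one, one_pow, mul_one,
    abs_of_pos (mul_pos hb ha), abs_of_pos (show (0 : ℝ) < 5 by norm_num),
    abs_of_pos (show (0 : ℝ) < ((n : ℝ) + 1) ^ 2 by positivity), div_div, stepTwo, mul_comm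
    ((aTwo (n + 1) : ℚ) : ℝ)]

theorem tendsto_ratioTwo : Tendsto ratioTwo atTop (𝓝 (Real.pi ^ 2 / 6)) := by
  set S : ℕ → ℝ := fun N => ∑ m ∈ range N, 1 / ((m : ℝ) + 1) ^ 2 with hS
  have hsum : HasSum (fun m : ℕ => 1 / ((m : ℝ) + 1) ^ 2) (Real.pi ^ 2 / 6) := by
    have h := (hasSum_nat_add_iff' 1).2 hasSum_zeta_two
    simpa using h
  have hlim : Tendsto S atTop (𝓝 (Real.pi ^ 2 / 6)) := hsum.tendsto_sum_nat
  -- twice the alternating sum tends to the same limit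
  have halt : ∀ n, ((HTwo n : ℚ) : ℝ) = ∑ m ∈ range n, (-1 : ℝ) ^ m / ((m : ℝ) + 1) ^ 2 :=
    fun n => by simp [HTwo]
  have heven : ∀ M, ((HTwo (2 * M) : ℚ) : ℝ) = S (2 * M) - S M / 2 := by
    intro M
    induction M with
    | zero => simp [HTwo, hS]
    | succ M ih =>
      simp only [halt, hS] at ih ⊢
      rw [show 2 * (M + 1) = 2 * M + 1 + 1 by ring, sum_range_succ, sum_range_succ, ih,
        sum_range_succ _ (2 * M + 1), sum_range_succ _ (2 * M), sum_range_succ _ M,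
        show (-1 : ℝ) ^ (2 * M + 1) = -1 by simp [pow_succ, pow_mul],
        show (-1 : ℝ) ^ (2 * M) = 1 by simp [pow_mul]]
      push_cast
      field_simp
      ring
  have hH : Tendsto (fun n => ((HTwo n : ℚ) : ℝ)) atTop (𝓝 (Real.pi ^ 2 / 6 / 2)) := by
    have h2 : Tendsto (fun M => ((HTwo (2 * M) : ℚ) : ℝ)) atTop
        (𝓝 (Real.pi ^ 2 / 6 / 2)) := by
      have := (hlim.comp (tendsto_id.const_mul_atTop' (show 0 < 2 by norm_num))).sub
        (hlim.div_const 2)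
      rw [show Real.pi ^ 2 / 6 - Real.pi ^ 2 / 6 / 2 = Real.pi ^ 2 / 6 / 2 by ring] at this
      exact this.congr fun M => (heven M).symm
    have hsumm : Summable fun m : ℕ => (-1 : ℝ) ^ m / ((m : ℝ) + 1) ^ 2 :=
      hsum.summable.of_norm_bounded fun m => by simp
    have h3 := hsumm.hasSum.tendsto_sum_nat
    simp only [← halt] at h3
    have h4 := tendsto_nhds_unique h2
      (h3.comp (tendsto_id.const_mul_atTop' (show 0 < 2 by norm_num)))
    rwa [← h4] at h3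
  have hdiff : Tendsto (fun n => ratioTwo n - 2 * ((HTwo n : ℚ) : ℝ)) atTop (𝓝 0) := by
    have h0 : Tendsto (fun n : ℕ => Real.pi ^ 2 / 6 * (1 / ((n : ℝ) + 1))) atTop (𝓝 0) := by
      simpa using (tendsto_one_div_add_atTop_nhds_zero_nat (𝕜 := ℝ)).const_mul (Real.pi ^ 2 / 6)
    refine squeeze_zero_norm (fun n => ?_) h0
    have ha : (0 : ℝ) < ((aTwo n : ℚ) : ℝ) := Rat.cast_pos.2 (aTwo_pos n)
    have e : bTwo n - aTwo n * (2 * HTwo n) =
        ∑ k ∈ range (n + 1), PTwo n k * corrTwo n k := by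
      rw [bTwo, aTwo, sum_mul, ← sum_sub_distrib]
      exact sum_congr rfl fun k _ => by rw [cvalTwo]; ring
    have e' := congrArg (fun x : ℚ => (x : ℝ)) e
    push_cast at e'
    rw [Real.norm_eq_abs, ratioTwo, div_sub' ha.ne', abs_div, abs_of_pos ha, div_le_iff₀ ha,
      e', aTwo, Rat.cast_sum, mul_sum]
    refine (abs_sum_le_sum_abs _ _).trans (sum_le_sum fun k hk => ?_)
    have hkn : k ≤ n := Nat.lt_succ_iff.mp (mem_range.mp hk)
    have hP0 : (0 : ℝ) ≤ ((PTwo n k : ℚ) : ℝ) :=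
      Rat.cast_nonneg.2 (mul_nonneg (Nat.cast_nonneg _) (P_pos hkn).le)
    rw [abs_mul, abs_of_nonneg hP0, mul_comm]
    refine mul_le_mul_of_nonneg_right ?_ hP0
    rw [corrTwo, Rat.cast_sum]
    refine (abs_sum_le_sum_abs _ _).trans ?_
    calc ∑ m ∈ range k, |(((-1) ^ (n + m) / (((m : ℚ) + 1) ^ 2 * P n (m + 1)) : ℚ) : ℝ)|
        ≤ ∑ m ∈ range k, 1 / ((m : ℝ) + 1) ^ 2 * (1 / ((n : ℝ) + 1)) :=
          sum_le_sum fun m hm => by
            have hmk : m + 1 ≤ n := by rw [mem_range] at hm; omega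
            have hP : ((n : ℝ) + 1) ≤ ((P n (m + 1) : ℚ) : ℝ) := by
              have h1 := Nat.choose_pos hmk
              have h2 : n + 1 ≤ (n + (m + 1)).choose (m + 1) := by
                rw [← Nat.choose_symm (Nat.le_add_left _ _), Nat.add_sub_cancel]
                calc n + 1 = (n + 1).choose n := (Nat.choose_succ_self_right n).symm
                  _ ≤ (n + (m + 1)).choose n := Nat.choose_le_choose n (by omega)
              have h3 : n + 1 ≤ n.choose (m + 1) * (n + (m + 1)).choose (m + 1) :=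
                h2.trans (Nat.le_mul_of_pos_left _ h1)
              simp only [P, Rat.cast_natCast]
              exact_mod_cast h3
            push_cast
            rw [abs_div, abs_pow, abs_neg, abs_one, one_pow,
              abs_of_pos (mul_pos (by positivity) (lt_of_lt_of_le (by positivity) hP)),
              one_div_mul_one_div]
            gcongr
      _ ≤ _ := by
          rw [← sum_mul]
          refine mul_le_mul_of_nonneg_right ?_ (by positivity)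
          exact sum_le_hasSum _ (fun m _ => by positivity) hsum
  have := hdiff.add (hH.const_mul 2)
  simp only [sub_add_cancel, zero_add] at this
  rwa [show 2 * (Real.pi ^ 2 / 6 / 2) = Real.pi ^ 2 / 6 by ring] at this

/-- **Apéry's measure for `ζ(2) = π ² / 6`.** -/
theorem exists_measure_zetaTwo : ∃ c : ℝ, 0 < c ∧ ∀ (p : ℤ) (q : ℕ), 0 < q →
    c / (q : ℝ) ^ 57 ≤ |Real.pi ^ 2 / 6 - p / q| := by
  choose u hu using isI_aTwo
  choose v hv using isI_bTwo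
  obtain ⟨C, hC0, hC⟩ := exists_lcmUpto_le
  obtain ⟨K, hK0, hK⟩ := exists_aTwo_ge
  have hK' : ∀ᶠ n : ℕ in atTop, (109 / 10 : ℝ) ^ (n + 1) ≤ K * (aTwo (n + 1) : ℚ) :=
    (tendsto_add_atTop_nat 1).eventually hK
  refine exists_measure (A := 107) (B := 56 / 5) (η := 441 / 500)
    (fun n => (Nat.lcmUpto n : ℤ) ^ 2 * u n) v (by norm_num) (by norm_num) (by norm_num)
    (by norm_num) (by norm_num) ?_
  filter_upwards [hK', eventually_mul_pow_le_pow (C ^ 2) 0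
      (show (0 : ℝ) ≤ 106671 / 1000 by norm_num) (show (106671 / 1000 : ℝ) < 107 by norm_num),
    eventually_mul_pow_le_pow (8 / 35 * (111 / 10)) 2
      (show (0 : ℝ) ≤ 111 / 10 by norm_num) (show (111 / 10 : ℝ) < 56 / 5 by norm_num),
    eventually_mul_pow_le_pow (C ^ 2 * K * (45 / 8)) 0
      (show (0 : ℝ) ≤ 961 / 1090 by norm_num) (show (961 / 1090 : ℝ) < 441 / 500 by norm_num)]
    with n hKn h1 h2 h3
  have ha : (0 : ℝ) < ((aTwo n : ℚ) : ℝ) := Rat.cast_pos.2 (aTwo_pos n)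
  have hb : (0 : ℝ) < ((aTwo (n + 1) : ℚ) : ℝ) := Rat.cast_pos.2 (aTwo_pos _)
  have hd0 : (1 : ℝ) ≤ (Nat.lcmUpto n : ℝ) ^ 2 :=
    one_le_pow₀ (by exact_mod_cast Nat.lcmUpto_pos n)
  have hd : (Nat.lcmUpto n : ℝ) ^ 2 ≤ C ^ 2 * (961 / 100) ^ n := by
    calc (Nat.lcmUpto n : ℝ) ^ 2 ≤ (C * (31 / 10) ^ n) ^ 2 := by gcongr; exact hC n
      _ = _ := by rw [mul_pow, ← pow_mul, mul_comm n 2, pow_mul]; norm_num
  have hu' : ((u n : ℤ) : ℝ) = ((aTwo n : ℚ) : ℝ) := by rw [hu n]; simp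
  have hv' : ((v n : ℤ) : ℝ) = (Nat.lcmUpto n : ℝ) ^ 2 * ((bTwo n : ℚ) : ℝ) := by
    have := congrArg (fun x : ℚ => (x : ℝ)) (hv n)
    push_cast at this
    exact this.symm
  have hup : ∀ k, ((aTwo k : ℚ) : ℝ) ≤ (111 / 10) ^ k := fun k => by
    have := (Rat.cast_le (K := ℝ)).2 (aTwo_le k).1
    push_cast at this
    exact this
  have hL : |(((Nat.lcmUpto n : ℤ) ^ 2 * u n : ℤ) : ℝ) * (Real.pi ^ 2 / 6) - v n| =
      (Nat.lcmUpto n : ℝ) ^ 2 * ((aTwo n : ℚ) : ℝ) * |Real.pi ^ 2 / 6 - ratioTwo n| := by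
    push_cast
    rw [hu', hv', ratioTwo, ← abs_of_nonneg (mul_nonneg (zero_le_one.trans hd0) ha.le),
      ← abs_mul, abs_of_nonneg (mul_nonneg (zero_le_one.trans hd0) ha.le)]
    congr 1
    field_simp
  obtain ⟨hlo, hhi⟩ := increment_bounds (r := ratioTwo) (t := stepTwo)
    (fun k => div_nonneg (by norm_num) (mul_nonneg (by positivity)
      (mul_nonneg (Rat.cast_pos.2 (aTwo_pos _)).le (Rat.cast_pos.2 (aTwo_pos _)).le)))
    abs_ratioTwo_succ_sub (fun k => by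
      have e1 : (3 : ℝ) * ((aTwo (k + 1) : ℚ) : ℝ) ≤ ((aTwo (k + 1 + 1) : ℚ) : ℝ) := by
        have := (Rat.cast_le (K := ℝ)).2 (three_mul_aTwo_le (k + 1))
        push_cast at this
        exact this
      have e2 : (3 : ℝ) * ((aTwo k : ℚ) : ℝ) ≤ ((aTwo (k + 1) : ℚ) : ℝ) := by
        have := (Rat.cast_le (K := ℝ)).2 (three_mul_aTwo_le k)
        push_cast at this
        exact this
      have p0 : (0 : ℝ) < ((aTwo k : ℚ) : ℝ) := Rat.cast_pos.2 (aTwo_pos _)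
      have p1 : (0 : ℝ) < ((aTwo (k + 1) : ℚ) : ℝ) := Rat.cast_pos.2 (aTwo_pos _)
      rw [stepTwo, stepTwo, div_div]
      refine div_le_div_of_nonneg_left (by norm_num) (by positivity) ?_
      have e3 : ((k : ℝ) + 1) ^ 2 ≤ (((k + 1 : ℕ) : ℝ) + 1) ^ 2 := by
        push_cast; gcongr; linarith
      calc ((k : ℝ) + 1) ^ 2 * (((aTwo k : ℚ) : ℝ) * ((aTwo (k + 1) : ℚ) : ℝ)) * 9
          = ((k : ℝ) + 1) ^ 2 * (3 * ((aTwo k : ℚ) : ℝ) * (3 * ((aTwo (k + 1) : ℚ) : ℝ))) := by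
            ring
        _ ≤ _ := by gcongr)
    tendsto_ratioTwo n
  have hA : ((aTwo n : ℚ) : ℝ) * stepTwo n =
      5 / (((n : ℝ) + 1) ^ 2 * ((aTwo (n + 1) : ℚ) : ℝ)) := by
    rw [stepTwo]; field_simp
  refine ⟨?_, ?_, ?_⟩
  · push_cast
    rw [hu', abs_of_nonneg (mul_nonneg (zero_le_one.trans hd0) ha.le)]
    refine le_trans (mul_le_mul hd (hup n) ha.le (by positivity)) (le_trans (le_of_eq ?_) h1)
    rw [mul_assoc, ← mul_pow]; norm_num
  · rw [hL]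
    refine le_trans ?_ (mul_le_mul_of_nonneg_left hlo (by positivity))
    rw [show ∀ w : ℝ, w * ((aTwo n : ℚ) : ℝ) * (7 / 8 * stepTwo n) =
      w * (7 / 8 * (((aTwo n : ℚ) : ℝ) * stepTwo n)) from fun w => by ring, hA]
    refine le_trans ?_ (le_mul_of_one_le_left (by positivity) hd0)
    rw [mul_div_assoc', inv_le_comm₀ (by positivity) (by positivity), inv_div,
      div_le_iff₀ (by norm_num)]
    calc ((n : ℝ) + 1) ^ 2 * ((aTwo (n + 1) : ℚ) : ℝ)
        ≤ ((n : ℝ) + 1) ^ 2 * (111 / 10) ^ (n + 1) := by gcongr; exact hup _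
      _ = 35 / 8 * (8 / 35 * (111 / 10) * ((n : ℝ) + 1) ^ 2 * (111 / 10) ^ n) := by ring
      _ ≤ 35 / 8 * (56 / 5) ^ n := by gcongr
      _ = _ := by ring
  · rw [hL]
    refine le_trans (mul_le_mul_of_nonneg_left hhi (by positivity)) (le_trans ?_ h3)
    rw [show ∀ w : ℝ, w * ((aTwo n : ℚ) : ℝ) * (9 / 8 * stepTwo n) =
      w * (9 / 8 * (((aTwo n : ℚ) : ℝ) * stepTwo n)) from fun w => by ring, hA]
    have h4 : 1 / ((aTwo (n + 1) : ℚ) : ℝ) ≤ K / (109 / 10) ^ n := by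
      rw [div_le_div_iff₀ hb (by positivity), one_mul]
      refine le_trans ?_ hKn
      exact pow_le_pow_right₀ (by norm_num) (by omega)
    have h5 : 5 / (((n : ℝ) + 1) ^ 2 * ((aTwo (n + 1) : ℚ) : ℝ)) ≤
        5 * (1 / ((aTwo (n + 1) : ℚ) : ℝ)) := by
      rw [mul_one_div]
      refine div_le_div_of_nonneg_left (by norm_num) hb (le_mul_of_one_le_left hb.le ?_)
      exact one_le_pow₀ (by linarith [(Nat.cast_nonneg n : (0 : ℝ) ≤ n)])
    calc (Nat.lcmUpto n : ℝ) ^ 2 * (9 / 8 * (5 / (((n : ℝ) + 1) ^ 2 * ((aTwo (n + 1) : ℚ) : ℝ))))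
        ≤ C ^ 2 * (961 / 100) ^ n * (9 / 8 * (5 * (K / (109 / 10) ^ n))) := by
          gcongr
          exact le_trans h5 (by gcongr)
      _ = C ^ 2 * K * (45 / 8) * ((961 / 100) ^ n / (109 / 10) ^ n) := by ring
      _ = C ^ 2 * K * (45 / 8) * ((n : ℝ) + 1) ^ 0 * (961 / 1090) ^ n := by
          rw [← div_pow]; norm_num

/-! ### `ζ(3)` -/

theorem aSeq_le (n : ℕ) : aSeq n ≤ 34 ^ n := by
  induction n using Nat.twoStepInduction with
  | zero => rw [aSeq_zero]; norm_num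
  | one => rw [aSeq_one]; norm_num
  | more j _ ih =>
    obtain ⟨h, -⟩ := recurrence j
    refine le_of_mul_le_mul_left ?_ (show (0 : ℚ) < ((j : ℚ) + 2) ^ 3 by positivity)
    have hp : pol ((j : ℚ) + 1) ≤ 34 * ((j : ℚ) + 2) ^ 3 := by
      simp only [pol]
      nlinarith [(Nat.cast_nonneg j : (0 : ℚ) ≤ j), sq_nonneg (j : ℚ)]
    have hb : (0 : ℚ) ≤ pol ((j : ℚ) + 1) := by simp only [pol]; positivity
    calc ((j : ℚ) + 2) ^ 3 * aSeq (j + 2) ≤ pol ((j : ℚ) + 1) * aSeq (j + 1) := by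
          nlinarith [mul_nonneg (show (0 : ℚ) ≤ ((j : ℚ) + 1) ^ 3 by positivity) (aSeq_pos j).le]
      _ ≤ 34 * ((j : ℚ) + 2) ^ 3 * 34 ^ (j + 1) := mul_le_mul hp ih (aSeq_pos _).le (by positivity)
      _ = _ := by ring

theorem exists_aSeq_ge : ∃ K : ℝ, 0 < K ∧
    ∀ᶠ n : ℕ in atTop, (33 : ℝ) ^ n ≤ K * (aSeq n : ℚ) := by
  refine ⟨33 ^ 60 / (aSeq 60 : ℚ),
    div_pos (by positivity) (Rat.cast_pos.2 (aSeq_pos _)), ?_⟩
  filter_upwards [eventually_ge_atTop 60] with n hn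
  induction n, hn using Nat.le_induction with
  | base => rw [div_mul_cancel₀ _ (Rat.cast_pos.2 (aSeq_pos 60)).ne']
  | succ n hn ih =>
    obtain ⟨j, rfl⟩ : ∃ j, n = j + 1 := ⟨n - 1, by omega⟩
    obtain ⟨h, -⟩ := recurrence j
    have hj : (59 : ℚ) ≤ j := by exact_mod_cast (show 59 ≤ j by omega)
    have hstep : (33 : ℚ) * aSeq (j + 1) ≤ aSeq (j + 1 + 1) := by
      refine le_of_mul_le_mul_left ?_ (show (0 : ℚ) < ((j : ℚ) + 2) ^ 3 by positivity)
      have hp : 33 * ((j : ℚ) + 2) ^ 3 ≤ pol ((j : ℚ) + 1) - ((j : ℚ) + 1) ^ 3 / 30 := by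
        simp only [pol]
        nlinarith [mul_nonneg (sub_nonneg.mpr hj) (sq_nonneg (j : ℚ))]
      nlinarith [mul_le_mul_of_nonneg_left (thirty_mul_aSeq_le (show 12 ≤ j by omega))
          (show (0 : ℚ) ≤ ((j : ℚ) + 1) ^ 3 / 30 by positivity),
        mul_le_mul_of_nonneg_right hp (aSeq_pos (j + 1)).le]
    have hstep' : (33 : ℝ) * (aSeq (j + 1) : ℚ) ≤ (aSeq (j + 1 + 1) : ℚ) := by
      have := (Rat.cast_le (K := ℝ)).2 hstep
      push_cast at this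
      exact this
    have hK : (0 : ℝ) ≤ 33 ^ 60 / (aSeq 60 : ℚ) :=
      div_nonneg (by positivity) (Rat.cast_pos.2 (aSeq_pos _)).le
    rw [pow_succ]
    nlinarith [mul_le_mul_of_nonneg_left hstep' hK]

/-- The size of the increment of `ratio`. -/
def stepThree (n : ℕ) : ℝ :=
  6 / (((n : ℝ) + 1) ^ 3 * (((aSeq n : ℚ) : ℝ) * ((aSeq (n + 1) : ℚ) : ℝ)))

/-- **A measure for `ζ(3)`.** -/
theorem exists_measure_zetaThree : ∃ c : ℝ, 0 < c ∧ ∀ (p : ℤ) (q : ℕ), 0 < q →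
    c / (q : ℝ) ^ 104 ≤ |zetaThree - p / q| := by
  choose u hu using isI_aSeq
  choose v hv using isI_bSeq
  obtain ⟨C, hC0, hC⟩ := exists_lcmUpto_le
  obtain ⟨K, hK0, hK⟩ := exists_aSeq_ge
  have hK' : ∀ᶠ n : ℕ in atTop, (33 : ℝ) ^ (n + 1) ≤ K * (aSeq (n + 1) : ℚ) :=
    (tendsto_add_atTop_nat 1).eventually hK
  refine exists_measure (A := 1013) (B := 35) (η := 113 / 125)
    (fun n => 2 * (Nat.lcmUpto n : ℤ) ^ 3 * u n) v (by norm_num) (by norm_num) (by norm_num)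
    (by norm_num) (by norm_num) ?_
  filter_upwards [hK', eventually_mul_pow_le_pow (2 * C ^ 3) 0
      (show (0 : ℝ) ≤ 29791 / 1000 * 34 by norm_num)
      (show (29791 / 1000 * 34 : ℝ) < 1013 by norm_num),
    eventually_mul_pow_le_pow (4 / 21 * 34) 3
      (show (0 : ℝ) ≤ 34 by norm_num) (show (34 : ℝ) < 35 by norm_num),
    eventually_mul_pow_le_pow (2 * C ^ 3 * K * (27 / 4)) 0
      (show (0 : ℝ) ≤ 29791 / 33000 by norm_num)
      (show (29791 / 33000 : ℝ) < 113 / 125 by norm_num)]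
    with n hKn h1 h2 h3
  have ha : (0 : ℝ) < ((aSeq n : ℚ) : ℝ) := Rat.cast_pos.2 (aSeq_pos n)
  have hb : (0 : ℝ) < ((aSeq (n + 1) : ℚ) : ℝ) := Rat.cast_pos.2 (aSeq_pos _)
  have hd0 : (1 : ℝ) ≤ 2 * (Nat.lcmUpto n : ℝ) ^ 3 := by
    have : (1 : ℝ) ≤ (Nat.lcmUpto n : ℝ) ^ 3 :=
      one_le_pow₀ (by exact_mod_cast Nat.lcmUpto_pos n)
    linarith
  have hd : 2 * (Nat.lcmUpto n : ℝ) ^ 3 ≤ 2 * C ^ 3 * (29791 / 1000) ^ n := by
    calc 2 * (Nat.lcmUpto n : ℝ) ^ 3 ≤ 2 * (C * (31 / 10) ^ n) ^ 3 := by gcongr; exact hC n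
      _ = _ := by rw [mul_pow, ← pow_mul, mul_comm n 3, pow_mul]; norm_num; ring
  have hu' : ((u n : ℤ) : ℝ) = ((aSeq n : ℚ) : ℝ) := by rw [hu n]; simp
  have hv' : ((v n : ℤ) : ℝ) = 2 * (Nat.lcmUpto n : ℝ) ^ 3 * ((bSeq n : ℚ) : ℝ) := by
    have := congrArg (fun x : ℚ => (x : ℝ)) (hv n)
    push_cast at this
    exact this.symm
  have hup : ∀ k, ((aSeq k : ℚ) : ℝ) ≤ (34 : ℝ) ^ k := fun k => by
    have := (Rat.cast_le (K := ℝ)).2 (aSeq_le k)
    push_cast at this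
    exact this
  have hL : |((2 * (Nat.lcmUpto n : ℤ) ^ 3 * u n : ℤ) : ℝ) * zetaThree - v n| =
      2 * (Nat.lcmUpto n : ℝ) ^ 3 * ((aSeq n : ℚ) : ℝ) * |zetaThree - ratio n| := by
    push_cast
    rw [hu', hv', ratio, ← abs_of_nonneg (mul_nonneg (zero_le_one.trans hd0) ha.le),
      ← abs_mul, abs_of_nonneg (mul_nonneg (zero_le_one.trans hd0) ha.le)]
    congr 1
    field_simp
  obtain ⟨hlo, hhi⟩ := increment_bounds (r := ratio) (t := stepThree)
    (fun k => div_nonneg (by norm_num) (mul_nonneg (by positivity)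
      (mul_nonneg (Rat.cast_pos.2 (aSeq_pos _)).le (Rat.cast_pos.2 (aSeq_pos _)).le)))
    (fun k => by
      rw [ratio_succ, add_sub_cancel_left, stepThree, div_div, abs_of_nonneg]
      exact div_nonneg (by norm_num) (mul_nonneg (by positivity)
        (mul_nonneg (Rat.cast_pos.2 (aSeq_pos _)).le (Rat.cast_pos.2 (aSeq_pos _)).le)))
    (fun k => by
      have e1 : (3 : ℝ) * ((aSeq (k + 1) : ℚ) : ℝ) ≤ ((aSeq (k + 1 + 1) : ℚ) : ℝ) := by
        have := (Rat.cast_le (K := ℝ)).2 (five_mul_aSeq_le (k + 1))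
        push_cast at this
        linarith [(Rat.cast_pos (K := ℝ)).2 (aSeq_pos (k + 1))]
      have e2 : (3 : ℝ) * ((aSeq k : ℚ) : ℝ) ≤ ((aSeq (k + 1) : ℚ) : ℝ) := by
        have := (Rat.cast_le (K := ℝ)).2 (five_mul_aSeq_le k)
        push_cast at this
        linarith [(Rat.cast_pos (K := ℝ)).2 (aSeq_pos k)]
      have p0 : (0 : ℝ) < ((aSeq k : ℚ) : ℝ) := Rat.cast_pos.2 (aSeq_pos _)
      have p1 : (0 : ℝ) < ((aSeq (k + 1) : ℚ) : ℝ) := Rat.cast_pos.2 (aSeq_pos _)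
      rw [stepThree, stepThree, div_div]
      refine div_le_div_of_nonneg_left (by norm_num) (by positivity) ?_
      have e3 : ((k : ℝ) + 1) ^ 3 ≤ (((k + 1 : ℕ) : ℝ) + 1) ^ 3 := by
        push_cast; gcongr; linarith
      calc ((k : ℝ) + 1) ^ 3 * (((aSeq k : ℚ) : ℝ) * ((aSeq (k + 1) : ℚ) : ℝ)) * 9
          = ((k : ℝ) + 1) ^ 3 * (3 * ((aSeq k : ℚ) : ℝ) * (3 * ((aSeq (k + 1) : ℚ) : ℝ))) := by
            ring
        _ ≤ _ := by gcongr)
    tendsto_ratio n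
  have hA : ((aSeq n : ℚ) : ℝ) * stepThree n =
      6 / (((n : ℝ) + 1) ^ 3 * ((aSeq (n + 1) : ℚ) : ℝ)) := by
    rw [stepThree]; field_simp
  refine ⟨?_, ?_, ?_⟩
  · push_cast
    rw [hu', abs_of_nonneg (mul_nonneg (zero_le_one.trans hd0) ha.le)]
    refine le_trans (mul_le_mul hd (hup n) ha.le (by positivity)) (le_trans (le_of_eq ?_) h1)
    rw [mul_pow]; ring
  · rw [hL]
    refine le_trans ?_ (mul_le_mul_of_nonneg_left hlo (by positivity))
    rw [show ∀ w : ℝ, w * ((aSeq n : ℚ) : ℝ) * (7 / 8 * stepThree n) =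
      w * (7 / 8 * (((aSeq n : ℚ) : ℝ) * stepThree n)) from fun w => by ring, hA]
    refine le_trans ?_ (le_mul_of_one_le_left (by positivity) hd0)
    rw [mul_div_assoc', inv_le_comm₀ (by positivity) (by positivity), inv_div,
      div_le_iff₀ (by norm_num)]
    calc ((n : ℝ) + 1) ^ 3 * ((aSeq (n + 1) : ℚ) : ℝ)
        ≤ ((n : ℝ) + 1) ^ 3 * 34 ^ (n + 1) := by gcongr; exact hup _
      _ = 21 / 4 * (4 / 21 * 34 * ((n : ℝ) + 1) ^ 3 * 34 ^ n) := by ring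
      _ ≤ 21 / 4 * (35 : ℝ) ^ n := by gcongr
      _ ≤ _ := by nlinarith [pow_pos (show (0 : ℝ) < 35 by norm_num) n]
  · rw [hL]
    refine le_trans (mul_le_mul_of_nonneg_left hhi (by positivity)) (le_trans ?_ h3)
    rw [show ∀ w : ℝ, w * ((aSeq n : ℚ) : ℝ) * (9 / 8 * stepThree n) =
      w * (9 / 8 * (((aSeq n : ℚ) : ℝ) * stepThree n)) from fun w => by ring, hA]
    have h4 : 1 / ((aSeq (n + 1) : ℚ) : ℝ) ≤ K / 33 ^ n := by
      rw [div_le_div_iff₀ hb (by positivity), one_mul]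
      refine le_trans ?_ hKn
      exact pow_le_pow_right₀ (by norm_num) (by omega)
    have h5 : 6 / (((n : ℝ) + 1) ^ 3 * ((aSeq (n + 1) : ℚ) : ℝ)) ≤
        6 * (1 / ((aSeq (n + 1) : ℚ) : ℝ)) := by
      rw [mul_one_div]
      refine div_le_div_of_nonneg_left (by norm_num) hb (le_mul_of_one_le_left hb.le ?_)
      exact one_le_pow₀ (by linarith [(Nat.cast_nonneg n : (0 : ℝ) ≤ n)])
    calc 2 * (Nat.lcmUpto n : ℝ) ^ 3 *
          (9 / 8 * (6 / (((n : ℝ) + 1) ^ 3 * ((aSeq (n + 1) : ℚ) : ℝ))))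
        ≤ 2 * C ^ 3 * (29791 / 1000) ^ n * (9 / 8 * (6 * (K / 33 ^ n))) := by
          gcongr
          exact le_trans h5 (by gcongr)
      _ = 2 * C ^ 3 * K * (27 / 4) * ((29791 / 1000) ^ n / 33 ^ n) := by ring
      _ = 2 * C ^ 3 * K * (27 / 4) * ((n : ℝ) + 1) ^ 0 * (29791 / 33000) ^ n := by
          rw [← div_pow]; norm_num

end FA.Apery
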