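import Mathlib.Data.Nat.Choose.Basic
import Mathlib.Algebra.BigOperators.Group.Finset.Basic
import Mathlib.Algebra.BigOperators.Intervals
import Mathlib.Algebra.Order.BigOperators.Ring.Finset
import Mathlib.Data.Rat.Defs
import Mathlib.Tactic.FieldSimp
import Mathlib.Tactic.LinearCombination
import Mathlib.Tactic.Linarith

/-!
# The numbers of Apéry

`a n = ∑ P n k ^ 2`, `b n = ∑ P n k ^ 2 * cval n k` with `P n k = C(n, k) C(n + k, k)` satisfy the
same recurrence of order two, by creative telescoping (Apéry, van der Poorten, Zagier).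
-/

set_option autoImplicit false

namespace FA.Apery

open Finset

/-- `C(n, k) C(n + k, k)`. -/
def P (n k : ℕ) : ℚ := (n.choose k * (n + k).choose k : ℕ)

/-- `∑ 1 / m ^ 3`, `m ≤ n`. -/
def H (n : ℕ) : ℚ := ∑ m ∈ range n, 1 / ((m : ℚ) + 1) ^ 3

/-- The correction `∑ (-1) ^ (m - 1) / (2 m ^ 3 P n m)`, `m ≤ k`. -/
def corr (n k : ℕ) : ℚ := ∑ m ∈ range k, (-1) ^ m / (2 * ((m : ℚ) + 1) ^ 3 * P n (m + 1))

/-- The approximation of `ζ(3)` of index `(n, k)`. -/
def cval (n k : ℕ) : ℚ := H n + corr n k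

/-- The denominators. -/
def aSeq (n : ℕ) : ℚ := ∑ k ∈ range (n + 1), P n k ^ 2

/-- The numerators. -/
def bSeq (n : ℕ) : ℚ := ∑ k ∈ range (n + 1), P n k ^ 2 * cval n k

/-- The polynomial of the recurrence. -/
def pol (n : ℚ) : ℚ := 34 * n ^ 3 + 51 * n ^ 2 + 27 * n + 5

theorem P_eq_zero {n k : ℕ} (h : n < k) : P n k = 0 := by
  simp [P, Nat.choose_eq_zero_of_lt h]

theorem P_pos {n k : ℕ} (h : k ≤ n) : 0 < P n k := by
  have h1 := Nat.choose_pos h
  have h2 := Nat.choose_pos (Nat.le_add_left k n)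
  exact Nat.cast_pos.mpr (Nat.mul_pos h1 h2)

theorem P_zero (n : ℕ) : P n 0 = 1 := by simp [P]

theorem P_succ_left {n k : ℕ} (h : k ≤ n + 1) :
    ((n : ℚ) + 1 - k) * P (n + 1) k = ((n : ℚ) + 1 + k) * P n k := by
  have e1 := congrArg (fun x : ℕ => (x : ℚ)) (Nat.choose_mul_succ_eq n k)
  have e2 := congrArg (fun x : ℕ => (x : ℚ)) (Nat.choose_mul_succ_eq (n + k) k)
  simp only [show n + k + 1 - k = n + 1 by omega, Nat.cast_mul, Nat.cast_add, Nat.cast_one,
    Nat.cast_sub h] at e1 e2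
  simp only [P, Nat.cast_mul, show n + 1 + k = n + k + 1 by omega]
  have hn : ((n : ℚ) + 1) ≠ 0 := by positivity
  refine mul_left_cancel₀ hn ?_
  linear_combination (-(((n + k + 1).choose k : ℕ) : ℚ) * ((n : ℚ) + 1)) * e1 +
    (-((n.choose k : ℕ) : ℚ) * ((n : ℚ) + 1)) * e2

theorem P_succ_right {n k : ℕ} (h : k ≤ n) :
    ((k : ℚ) + 1) ^ 2 * P n (k + 1) = ((n : ℚ) + k + 1) * ((n : ℚ) - k) * P n k := by
  have e1 := congrArg (fun x : ℕ => (x : ℚ)) (Nat.choose_succ_right_eq n k)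
  have e2 := congrArg (fun x : ℕ => (x : ℚ)) (Nat.add_one_mul_choose_eq (n + k) k)
  simp only [Nat.cast_mul, Nat.cast_add, Nat.cast_one, Nat.cast_sub h] at e1 e2
  simp only [P, Nat.cast_mul, show n + (k + 1) = n + k + 1 by omega]
  linear_combination ((((n + k + 1).choose (k + 1) : ℕ) : ℚ) * ((k : ℚ) + 1)) * e1 -
    (((n.choose k : ℕ) : ℚ) * ((n : ℚ) - k)) * e2

theorem cval_succ (n k : ℕ) :
    cval n (k + 1) = cval n k + (-1) ^ k / (2 * ((k : ℚ) + 1) ^ 3 * P n (k + 1)) := by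
  rw [cval, cval, corr, corr, sum_range_succ, add_assoc]

theorem cval_succ_left {n k : ℕ} (h : k ≤ n) :
    cval (n + 1) k =
      cval n k + (-1) ^ k / (((n : ℚ) + 1) ^ 2 * ((n : ℚ) + 1 - k) * P (n + 1) k) := by
  induction k with
  | zero =>
    simp only [cval, corr, H, sum_range_zero, add_zero, sum_range_succ, P_zero]
    simp [pow_succ]
  | succ k ih =>
    rw [cval_succ, cval_succ, ih (by omega)]
    have hk : (k : ℚ) + 1 ≤ n := by exact_mod_cast h
    have hR : P n (k + 1) ≠ 0 := (P_pos h).ne'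
    have h1 : ((n : ℚ) - k) ≠ 0 := by linarith
    have h2 : ((n : ℚ) + 1 - k) ≠ 0 := by linarith
    have h3 : ((n : ℚ) + k + 2) ≠ 0 := by positivity
    have h4 : ((k : ℚ) + 1) ≠ 0 := by positivity
    have h5 : ((n : ℚ) + 1) ≠ 0 := by positivity
    have e1 : P (n + 1) (k + 1) = ((n : ℚ) + k + 2) * P n (k + 1) / ((n : ℚ) - k) := by
      rw [eq_div_iff h1]
      have := P_succ_left (n := n) (k := k + 1) (by omega)
      push_cast at this
      linear_combination this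
    have e2 : P (n + 1) k =
        ((k : ℚ) + 1) ^ 2 * P (n + 1) (k + 1) / (((n : ℚ) + k + 2) * ((n : ℚ) + 1 - k)) := by
      rw [eq_div_iff (mul_ne_zero h3 h2)]
      have := P_succ_right (n := n + 1) (k := k) (by omega)
      push_cast at this
      linear_combination -this
    push_cast
    rw [e2, e1, pow_succ]
    have h1' : ((n : ℚ) + 1 - (k + 1)) ≠ 0 := by rw [add_sub_add_right_eq_sub]; exact h1
    field_simp
    ring

/-- The telescoping function of the denominators, shifted by one. -/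
def telA (n : ℕ) : ℕ → ℚ
  | 0 => 0
  | k + 1 => 4 * (2 * n + 1) * ((k : ℚ) * (2 * k + 1) - (2 * n + 1) ^ 2) * P n k ^ 2

/-- The telescoping function of the numerators, shifted by one. -/
def telB (n : ℕ) : ℕ → ℚ
  | 0 => 0
  | k + 1 => 4 * (2 * n + 1) * ((k : ℚ) * (2 * k + 1) - (2 * n + 1) ^ 2) * P n k ^ 2 * cval n k -
      5 * (2 * n + 1) * (-1) ^ k * k / ((n : ℚ) * (n + 1)) * P n k

theorem telescope_last (j : ℕ) :
    ((j : ℚ) + 2) ^ 3 * P (j + 2) (j + 2) ^ 2 = -telA (j + 1) (j + 2) ∧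
    ((j : ℚ) + 2) ^ 3 * (P (j + 2) (j + 2) ^ 2 * cval (j + 2) (j + 2)) =
      -telB (j + 1) (j + 2) := by
  set R := P (j + 1) (j + 1)
  have hR : R ≠ 0 := (P_pos le_rfl).ne'
  have hj : (j : ℚ) + 1 ≠ 0 := by positivity
  have hj2 : (j : ℚ) + 2 ≠ 0 := by positivity
  have hj3 : (2 * (j : ℚ) + 3) ≠ 0 := by positivity
  have e1 : P (j + 2) (j + 1) = (2 * (j : ℚ) + 3) * R := by
    have := P_succ_left (n := j + 1) (k := j + 1) (by omega)
    push_cast at this
    linear_combination this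
  have e2 : P (j + 2) (j + 2) = (2 * (2 * (j : ℚ) + 3)) * R / ((j : ℚ) + 2) := by
    rw [eq_div_iff hj2]
    have := P_succ_right (n := j + 2) (k := j + 1) (by omega)
    push_cast at this
    rw [e1] at this
    refine mul_left_cancel₀ hj2 ?_
    linear_combination this
  constructor
  · rw [telA, e2]
    push_cast
    field_simp
    ring
  · rw [telB, cval_succ, cval_succ_left (n := j + 1) le_rfl, e1, e2, pow_succ]
    push_cast
    field_simp
    ring

theorem telescope {j k : ℕ} (h : k ≤ j + 1) :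
    ((j : ℚ) + 2) ^ 3 * P (j + 2) k ^ 2 - pol ((j : ℚ) + 1) * P (j + 1) k ^ 2 +
      ((j : ℚ) + 1) ^ 3 * P j k ^ 2 = telA (j + 1) (k + 1) - telA (j + 1) k ∧
    ((j : ℚ) + 2) ^ 3 * (P (j + 2) k ^ 2 * cval (j + 2) k) -
      pol ((j : ℚ) + 1) * (P (j + 1) k ^ 2 * cval (j + 1) k) +
      ((j : ℚ) + 1) ^ 3 * (P j k ^ 2 * cval j k) = telB (j + 1) (k + 1) - telB (j + 1) k := by
  set R := P (j + 1) k
  set c := cval (j + 1) k
  have hR : R ≠ 0 := (P_pos h).ne'
  have hk : (k : ℚ) ≤ (j : ℚ) + 1 := by exact_mod_cast h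
  have h1 : ((j : ℚ) + 2 - k) ≠ 0 := by linarith
  have h2 : ((j : ℚ) + 1 + k) ≠ 0 := by positivity
  have h3 : ((j : ℚ) + 1) ≠ 0 := by positivity
  have h4 : ((j : ℚ) + 2) ≠ 0 := by positivity
  have h5 : ((j : ℚ) + 2 + k) ≠ 0 := by positivity
  have eu : P (j + 2) k = ((j : ℚ) + 2 + k) * R / ((j : ℚ) + 2 - k) := by
    rw [eq_div_iff h1]
    have := P_succ_left (n := j + 1) (k := k) (by omega)
    push_cast at this
    linear_combination this
  have ev : P j k = ((j : ℚ) + 1 - k) * R / ((j : ℚ) + 1 + k) := by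
    rw [eq_div_iff h2]
    have := P_succ_left (n := j) (k := k) h
    linear_combination -this
  have ecu : cval (j + 2) k = c + (-1) ^ k / (((j : ℚ) + 2) * ((j : ℚ) + 2) *
      ((j : ℚ) + 2 + k) * R) := by
    rw [cval_succ_left (n := j + 1) h, eu]
    push_cast
    rw [show (j : ℚ) + 1 + 1 = j + 2 by ring]
    simp only [c]
    field_simp
  have ew : P j k ^ 2 * cval j k = (((j : ℚ) + 1 - k) * R / ((j : ℚ) + 1 + k)) ^ 2 * c -
      (-1) ^ k * ((j : ℚ) + 1 - k) * R / (((j : ℚ) + 1) ^ 2 * ((j : ℚ) + 1 + k) ^ 2) := by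
    rcases h.lt_or_eq with hlt | rfl
    · have hd := cval_succ_left (n := j) (k := k) (by omega)
      have h6 : ((j : ℚ) + 1 - k) ≠ 0 := by
        have : (k : ℚ) + 1 ≤ (j : ℚ) + 1 := by exact_mod_cast hlt
        linarith
      rw [show cval j k = c - (-1) ^ k / (((j : ℚ) + 1) ^ 2 * ((j : ℚ) + 1 - k) * R) from
        eq_sub_of_add_eq hd.symm, ev]
      field_simp
    · rw [P_eq_zero (Nat.lt_succ_self j)]
      push_cast
      ring
  set R₁ := (k : ℚ) ^ 2 * R / (((j : ℚ) + 1 + k) * ((j : ℚ) + 2 - k))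
  set q := ((k : ℚ) - 1) * (2 * k - 1) - (2 * (j : ℚ) + 3) ^ 2
  have es : telA (j + 1) k = 4 * (2 * (j : ℚ) + 3) * q * R₁ ^ 2 ∧
      telB (j + 1) k = 4 * (2 * (j : ℚ) + 3) * q * R₁ ^ 2 * c +
        (-1) ^ k * 2 * (2 * (j : ℚ) + 3) * q * k * R /
          (((j : ℚ) + 1 + k) ^ 2 * ((j : ℚ) + 2 - k) ^ 2) +
        5 * (2 * (j : ℚ) + 3) * (-1) ^ k * ((k : ℚ) - 1) /
          (((j : ℚ) + 1) * ((j : ℚ) + 2)) * R₁ := by
    rcases Nat.eq_zero_or_pos k with rfl | hpos
    · simp [telA, telB, R₁]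
    obtain ⟨i, rfl⟩ := Nat.exists_eq_add_of_le' hpos
    push_cast at h1 h2 h5 hk
    have hi : (i : ℚ) + 1 ≠ 0 := by positivity
    have eP : P (j + 1) i = R₁ := by
      have := P_succ_right (n := j + 1) (k := i) (by omega)
      simp only [R₁]
      push_cast at this ⊢
      rw [eq_div_iff (mul_ne_zero h2 h1)]
      linear_combination -this
    have ec : cval (j + 1) i = c - (-1) ^ i / (2 * ((i : ℚ) + 1) ^ 3 * R) :=
      eq_sub_of_add_eq (cval_succ (j + 1) i).symm
    constructor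
    · rw [telA, eP]
      simp only [q]
      push_cast
      ring
    · rw [telB, eP, ec, pow_succ]
      simp only [q, R₁]
      push_cast
      field_simp
      ring
  constructor
  · rw [eu, ev, es.1, telA]
    simp only [pol, q, R₁]
    push_cast
    field_simp
    ring
  · rw [ew, ecu, eu, es.2, telB]
    simp only [pol, q, R₁]
    push_cast
    field_simp
    ring

/-- **The recurrence of Apéry.** -/
theorem recurrence (j : ℕ) :
    ((j : ℚ) + 2) ^ 3 * aSeq (j + 2) - pol ((j : ℚ) + 1) * aSeq (j + 1) +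
      ((j : ℚ) + 1) ^ 3 * aSeq j = 0 ∧
    ((j : ℚ) + 2) ^ 3 * bSeq (j + 2) - pol ((j : ℚ) + 1) * bSeq (j + 1) +
      ((j : ℚ) + 1) ^ 3 * bSeq j = 0 := by
  have ext : ∀ (n m : ℕ) (f : ℕ → ℚ), n ≤ m →
      ∑ k ∈ range (n + 1), P n k ^ 2 * f k = ∑ k ∈ range (m + 1), P n k ^ 2 * f k :=
    fun n m f hnm => sum_subset (range_subset_range.mpr (by omega)) fun k _ hk => by
      rw [mem_range, not_lt] at hk
      rw [P_eq_zero hk]; ring
  have h0 := ext j (j + 2)
  have h1 := ext (j + 1) (j + 2)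
  have ha : ∀ n, aSeq n = ∑ k ∈ range (n + 1), P n k ^ 2 * (1 : ℚ) := fun n => by
    simp [aSeq]
  constructor
  · rw [ha, ha, ha, h0 _ (by omega), h1 _ (by omega), mul_sum, mul_sum, mul_sum,
      ← sum_sub_distrib, ← sum_add_distrib, sum_range_succ, P_eq_zero (n := j) (by omega),
      P_eq_zero (n := j + 1) (k := j + 2) (by omega)]
    simp only [mul_one]
    rw [sum_congr rfl fun k hk => (telescope (j := j) (k := k)
      (Nat.lt_succ_iff.mp (mem_range.mp hk))).1, sum_range_sub, (telescope_last j).1]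
    simp [telA]
  · rw [bSeq, bSeq, bSeq, h0 _ (by omega), h1 _ (by omega), mul_sum, mul_sum, mul_sum,
      ← sum_sub_distrib, ← sum_add_distrib, sum_range_succ, P_eq_zero (n := j) (by omega),
      P_eq_zero (n := j + 1) (k := j + 2) (by omega)]
    rw [sum_congr rfl fun k hk => (telescope (j := j) (k := k)
      (Nat.lt_succ_iff.mp (mem_range.mp hk))).2, sum_range_sub, (telescope_last j).2]
    simp [telB]

theorem aSeq_zero : aSeq 0 = 1 := by simp [aSeq, P]
theorem aSeq_one : aSeq 1 = 5 := by norm_num [aSeq, P, sum_range_succ]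
theorem bSeq_zero : bSeq 0 = 0 := by simp [bSeq, cval, H, corr]
theorem bSeq_one : bSeq 1 = 6 := by norm_num [bSeq, cval, H, corr, P, sum_range_succ]

/-- **The determinant.** -/
theorem wronskian (n : ℕ) :
    aSeq n * bSeq (n + 1) - aSeq (n + 1) * bSeq n = 6 / ((n : ℚ) + 1) ^ 3 := by
  induction n with
  | zero => norm_num [aSeq_zero, aSeq_one, bSeq_zero, bSeq_one]
  | succ n ih =>
    obtain ⟨ra, rb⟩ := recurrence n
    have h1 : ((n : ℚ) + 1) ^ 3 ≠ 0 := by positivity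
    have h2 : ((n : ℚ) + 2) ^ 3 ≠ 0 := by positivity
    rw [eq_div_iff h1] at ih
    push_cast
    rw [show (n : ℚ) + 1 + 1 = n + 2 by ring, eq_div_iff h2]
    linear_combination aSeq (n + 1) * rb - bSeq (n + 1) * ra + ih

end FA.Apery
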